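import Fermat.Agent.TwoAdic.ClassNumber.Norm
import Mathlib.LinearAlgebra.Quotient.Card
import Mathlib.FieldTheory.Finiteness

/-!
# Torsion of the class group over the algebraic closure of a finite field

For a function field of genus `g` with a Frobenius all of whose elements are periodic, there are at
most `ℓ ^ (2 g j)` classes killed by `ℓ ^ j`, for every prime `ℓ`.

Team LT2, owner helper45.
-/

set_option autoImplicit false
set_option linter.unusedSectionVars false

noncomputable section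

open AlgebraicCurve Fermat.Agent.Curve

namespace Fermat.Agent.TwoAdic.ClassNumber

variable {k F : Type*} [Field k] [IsAlgClosed k] [Field F] [Algebra k F] [IsFunctionField1 k F]
variable {p : ℕ} [Fact p.Prime] [CharP k p] {f : ℕ}
variable {g : SemilinearAut k F}

theorem IsFrob.periodic_class (hg : IsFrob g p f) (x : Pic0 k F) :
    ∃ N, 0 < N ∧ g ^ N • x = x := by
  obtain ⟨D, rfl⟩ := Pic0.mk_surjective x
  obtain ⟨N, hN, hD⟩ := hg.periodic_divisor (D : Divisor k F)
  refine ⟨N, hN, ?_⟩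
  rw [SemilinearAut.pic0_smul_mk]
  exact congrArg Pic0.mk (Subtype.ext hD)

theorem IsFrob.periodic_finset (hg : IsFrob g p f) (T : Finset (Pic0 k F)) :
    ∃ N, 0 < N ∧ ∀ x ∈ T, g ^ N • x = x := by
  classical
  induction T using Finset.induction with
  | empty => exact ⟨1, one_pos, fun x hx => absurd hx (Finset.notMem_empty x)⟩
  | insert a T _ ih =>
    obtain ⟨N, hN, hT⟩ := ih
    obtain ⟨M, hM, ha⟩ := hg.periodic_class a
    refine ⟨M * N, Nat.mul_pos hM hN, fun x hx => ?_⟩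
    rcases Finset.mem_insert.mp hx with rfl | hx
    · exact pow_smul_eq_of_dvd ha (dvd_mul_right M N)
    · exact pow_smul_eq_of_dvd (hT x hx) (dvd_mul_left N M)

/-- At most `ℓ ^ (2 g)` classes killed by `ℓ`. -/
theorem card_le_of_nsmul_eq_zero (hg : IsFrob g p f) {ℓ : ℕ} (hℓ : ℓ.Prime)
    (T : Finset (Pic0 k F)) (hT : ∀ x ∈ T, ℓ • x = 0) :
    T.card ≤ ℓ ^ (2 * genusFF k F) := by
  classical
  obtain ⟨P0⟩ := exists_place (K := k) (F := F)
  obtain ⟨N0, hN0, hP0⟩ := hg.periodic_place P0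
  have hg0 := hg.pow hN0
  obtain ⟨M0, hM0, hker⟩ := exists_not_dvd_ker hg0 hP0 hℓ.one_lt
  obtain ⟨N, hN, hfix⟩ := hg0.periodic_finset T
  have hMpos : 0 < M0 * N := Nat.mul_pos hM0 hN
  set φ := (g ^ N0) ^ (M0 * N) with hφ
  have hφP : φ • P0 = P0 := pow_smul_eq_of_dvd (N := 1) (by rwa [pow_one]) (one_dvd _)
  have hX := hker (M0 * N) (dvd_mul_right M0 N) hMpos
  have := finite_fixedPic (hg0.pow hMpos) hφP
  set S : AddSubgroup (Pic0 k F) := Pic0.torsion k F ℓ ⊓ fixedPic φ with hS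
  have : Finite S := Finite.of_injective
    (fun x : S => (⟨x.1, x.2.2⟩ : fixedPic φ)) fun a b h => Subtype.ext (by simpa using h)
  have hTS : ∀ x ∈ T, x ∈ S := fun x hx =>
    ⟨Pic0.mem_torsion.mpr (by rw [natCast_zsmul]; exact hT x hx),
      mem_fixedPic.mpr (pow_smul_eq_of_dvd (hfix x hx) (dvd_mul_left N M0))⟩
  have hcard : T.card ≤ Nat.card S := by
    rw [← Nat.card_eq_finsetCard T]
    exact Nat.card_le_card_of_injective (fun x : T => (⟨x.1, hTS x.1 x.2⟩ : S))
      fun a b h => Subtype.ext (by simpa using h)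
  -- `S` lies in the kernel of the norm
  have hzero : ∀ x : S, ℓ • (x : Pic0 k F) = 0 := fun x => by
    rw [← natCast_zsmul]; exact Pic0.mem_torsion.mp x.2.1
  have hφi : ∀ (i : ℕ) (x : S), φ ^ i • (x : Pic0 k F) = x := fun i x =>
    pow_smul_eq_of_dvd (N := 1) (by rw [pow_one]; exact x.2.2) (one_dvd i)
  let ι : S →+ (normHom φ ℓ).ker := AddMonoidHom.mk'
    (fun x => ⟨⟨x.1, hφi ℓ x⟩, by
      rw [AddMonoidHom.mem_ker]
      refine Subtype.ext ?_
      rw [coe_normHom]
      show ∑ i ∈ Finset.range ℓ, φ ^ i • (x : Pic0 k F) = 0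
      rw [Finset.sum_congr rfl fun i _ => hφi i x, Finset.sum_const, Finset.card_range, hzero]⟩)
    fun _ _ => rfl
  have hι : Function.Injective ι := fun a b h => Subtype.ext
    (congrArg (fun y : (normHom φ ℓ).ker => ((y : fixedPic (φ ^ ℓ)) : Pic0 k F)) h)
  have hdvd : Nat.card S ∣ Nat.card (normHom φ ℓ).ker := AddSubgroup.card_dvd_of_injective ι hι
  -- `S` is an `ℓ`-group
  have : Fact ℓ.Prime := ⟨hℓ⟩
  let inst : Module (ZMod ℓ) S := AddCommGroup.zmodModule fun x => Subtype.ext (hzero x)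
  have hcardS : Nat.card S = ℓ ^ Module.finrank (ZMod ℓ) S :=
    (FiniteField.pow_finrank_eq_natCard ℓ S).symm
  refine hcard.trans ?_
  rw [hcardS] at hdvd ⊢
  refine Nat.pow_le_pow_right hℓ.pos ?_
  by_contra hlt
  exact hX ((pow_dvd_pow ℓ (by omega)).trans hdvd)

theorem finite_torsion_one (hg : IsFrob g p f) {ℓ : ℕ} (hℓ : ℓ.Prime) :
    Finite (Pic0.torsion k F ℓ) ∧
      Nat.card (Pic0.torsion k F ℓ) ≤ ℓ ^ (2 * genusFF k F) := by
  classical
  have hmem : ∀ S : Finset (Pic0.torsion k F ℓ), S.card ≤ ℓ ^ (2 * genusFF k F) := fun S => by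
    rw [← Finset.card_map (Function.Embedding.subtype fun x => x ∈ Pic0.torsion k F ℓ)]
    refine card_le_of_nsmul_eq_zero hg hℓ _ fun x hx => ?_
    obtain ⟨y, -, rfl⟩ := Finset.mem_map.mp hx
    rw [← natCast_zsmul]
    exact Pic0.mem_torsion.mp y.2
  rcases finite_or_infinite (Pic0.torsion k F ℓ) with hfin | hinf
  · have := Fintype.ofFinite (Pic0.torsion k F ℓ)
    exact ⟨hfin, Nat.card_eq_fintype_card (α := Pic0.torsion k F ℓ) ▸ hmem Finset.univ⟩
  · obtain ⟨S, hS⟩ := Infinite.exists_subset_card_eq (Pic0.torsion k F ℓ)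
      (ℓ ^ (2 * genusFF k F) + 1)
    have := hmem S
    omega

/-- **The torsion bound**: at most `ℓ ^ (2 g j)` classes killed by `ℓ ^ j`. -/
theorem IsFrob.natCard_torsion_le (hg : IsFrob g p f) {ℓ : ℕ} (hℓ : ℓ.Prime) (j : ℕ) :
    Finite (Pic0.torsion k F (ℓ ^ j)) ∧
      Nat.card (Pic0.torsion k F (ℓ ^ j)) ≤ ℓ ^ (2 * genusFF k F * j) := by
  induction j with
  | zero =>
    have h0 : ∀ x : Pic0 k F, x ∈ Pic0.torsion k F (ℓ ^ 0) → x = 0 := fun x hx => by
      rw [Pic0.mem_torsion, natCast_zsmul, pow_zero, one_smul] at hx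
      exact hx
    have hsub : Subsingleton (Pic0.torsion k F (ℓ ^ 0)) :=
      ⟨fun a b => Subtype.ext ((h0 _ a.2).trans (h0 _ b.2).symm)⟩
    exact ⟨inferInstance, (Finite.card_le_one_iff_subsingleton.mpr hsub).trans (by simp)⟩
  | succ j ih =>
    obtain ⟨hfin, hle⟩ := ih
    obtain ⟨hfin1, hle1⟩ := finite_torsion_one hg hℓ
    let m : Pic0.torsion k F (ℓ ^ (j + 1)) →+ Pic0.torsion k F (ℓ ^ j) := AddMonoidHom.mk'
      (fun x => ⟨ℓ • (x : Pic0 k F), Pic0.mem_torsion.mpr (by
        rw [natCast_zsmul, ← mul_nsmul', ← pow_succ, ← natCast_zsmul]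
        exact Pic0.mem_torsion.mp x.2)⟩)
      fun x y => Subtype.ext (nsmul_add (x : Pic0 k F) (y : Pic0 k F) ℓ)
    let ι : m.ker → Pic0.torsion k F ℓ := fun x => ⟨x.1.1, Pic0.mem_torsion.mpr (by
      rw [natCast_zsmul]
      exact congrArg Subtype.val (AddMonoidHom.mem_ker.mp x.2))⟩
    have hι : Function.Injective ι := fun a b h =>
      Subtype.ext (Subtype.ext (congrArg (fun y : Pic0.torsion k F ℓ => (y : Pic0 k F)) h))
    have : Finite m.ker := Finite.of_injective ι hι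
    have : Finite (Pic0.torsion k F (ℓ ^ (j + 1)) ⧸ m.ker) :=
      Finite.of_injective _ (QuotientAddGroup.kerLift_injective m)
    refine ⟨Finite.of_equiv _ (AddSubgroup.addGroupEquivQuotientProdAddSubgroup (s := m.ker)).symm, ?_⟩
    rw [AddSubgroup.card_eq_card_quotient_mul_card_addSubgroup m.ker]
    refine (Nat.mul_le_mul ((Nat.card_le_card_of_injective _
      (QuotientAddGroup.kerLift_injective m)).trans hle)
      ((Nat.card_le_card_of_injective ι hι).trans hle1)).trans (le_of_eq ?_)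
    rw [← pow_add]
    ring

end Fermat.Agent.TwoAdic.ClassNumber
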