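import Mathlib.FieldTheory.Finite.GaloisField
import Mathlib.FieldTheory.IsAlgClosed.Basic
import Mathlib.LinearAlgebra.Dual.Lemmas

/-!
# Fixed vectors of periodic semilinear maps

A `q`-semilinear map of a finite dimensional space over an algebraically closed field of
characteristic `p`, all of whose points are periodic, has exactly `q ^ dim` fixed vectors.

Team LT2, owner helper45.
-/

set_option autoImplicit false

noncomputable section

open Polynomial

namespace Fermat.Agent.TwoAdic.ClassNumber

variable {k : Type*} [Field k] [IsAlgClosed k] (p : ℕ) [Fact p.Prime] [CharP k p]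

theorem natCard_pow_eq_self {e : ℕ} (he : 0 < e) :
    Finite {c : k // c ^ p ^ e = c} ∧ Nat.card {c : k // c ^ p ^ e = c} = p ^ e := by
  classical
  have hq : 1 < p ^ e := Nat.one_lt_pow he.ne' (Fact.out : p.Prime).one_lt
  set P : k[X] := X ^ p ^ e - X with hP
  have hsep : P.Separable := galois_poly_separable p _ (dvd_pow_self p he.ne')
  have hne : P ≠ 0 := hsep.ne_zero
  have hdeg : P.natDegree = p ^ e := FiniteField.X_pow_card_sub_X_natDegree_eq k hq
  have hmem : ∀ c : k, c ∈ P.roots.toFinset ↔ c ^ p ^ e = c := fun c => by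
    rw [Multiset.mem_toFinset, Polynomial.mem_roots hne]
    simp [hP, sub_eq_zero]
  have hcard : P.roots.toFinset.card = p ^ e := by
    rw [Multiset.toFinset_card_of_nodup (Polynomial.nodup_roots hsep),
      ← (IsAlgClosed.splits P).natDegree_eq_card_roots, hdeg]
  let eqv : {c : k // c ^ p ^ e = c} ≃ P.roots.toFinset :=
    Equiv.subtypeEquivRight fun c => (hmem c).symm
  refine ⟨Finite.of_equiv _ eqv.symm, ?_⟩
  rw [Nat.card_congr eqv, Nat.card_eq_finsetCard, hcard]

variable {V : Type*} [AddCommGroup V] [Module k V] {u : V →+ V} {f : ℕ}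

omit [IsAlgClosed k] [Fact p.Prime] [CharP k p] in
theorem iterate_smul (hu : ∀ (c : k) (v : V), u (c • v) = c ^ p ^ f • u v) (n : ℕ) (c : k) (v : V) :
    u^[n] (c • v) = c ^ p ^ (f * n) • u^[n] v := by
  induction n with
  | zero => simp
  | succ n ih =>
    rw [Function.iterate_succ_apply', ih, hu, ← Function.iterate_succ_apply' u, ← pow_mul, ← pow_add,
      Nat.mul_succ]

/-- The fixed vectors span. -/
theorem span_fixed (hf : 0 < f) (hu : ∀ (c : k) (v : V), u (c • v) = c ^ p ^ f • u v)
    (hper : ∀ v : V, ∃ N, 0 < N ∧ u^[N] v = v) :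
    Submodule.span k {v : V | u v = v} = ⊤ := by
  rw [eq_top_iff]
  intro v _
  by_contra hv
  obtain ⟨φ, hφv, hφ⟩ := Submodule.exists_dual_map_eq_bot_of_notMem hv inferInstance
  obtain ⟨N, hN, hvN⟩ := hper v
  obtain ⟨N', rfl⟩ : ∃ N', N = N' + 1 := ⟨N - 1, by omega⟩
  set P : k[X] := ∑ i ∈ Finset.range (N' + 1), C (φ (u^[i] v)) * X ^ p ^ (f * i) with hP
  have hp1 : 1 < p := (Fact.out : p.Prime).one_lt
  have hdeg : P.natDegree ≤ p ^ (f * N') := by
    refine Polynomial.natDegree_sum_le_of_forall_le _ _ fun i hi => ?_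
    refine (Polynomial.natDegree_C_mul_X_pow_le _ _).trans (Nat.pow_le_pow_right (by omega) ?_)
    rw [Finset.mem_range] at hi
    gcongr
    omega
  obtain ⟨hfin, hcard⟩ := natCard_pow_eq_self (k := k) p (e := f * (N' + 1)) (by positivity)
  have hfix : ∀ c : k, c ^ p ^ (f * (N' + 1)) = c →
      u (∑ i ∈ Finset.range (N' + 1), u^[i] (c • v)) = ∑ i ∈ Finset.range (N' + 1), u^[i] (c • v) := by
    intro c hc
    simp only [map_sum, ← Function.iterate_succ_apply' u]
    have hlast : u^[N' + 1] (c • v) = u^[0] (c • v) := by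
      rw [iterate_smul p hu, hc, hvN, Function.iterate_zero_apply]
    rw [Finset.sum_range_succ, hlast, Finset.sum_range_succ' (fun i => u^[i] (c • v))]
  have hroot : ∀ c : k, c ^ p ^ (f * (N' + 1)) = c → P.eval c = 0 := by
    intro c hc
    have hmem : φ (∑ i ∈ Finset.range (N' + 1), u^[i] (c • v)) ∈
        (Submodule.span k {v : V | u v = v}).map φ :=
      Submodule.mem_map_of_mem (Submodule.subset_span (hfix c hc))
    rw [hφ, Submodule.mem_bot, map_sum] at hmem
    rw [hP, Polynomial.eval_finsetSum, ← hmem]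
    refine Finset.sum_congr rfl fun i _ => ?_
    rw [iterate_smul p hu, map_smul, smul_eq_mul, Polynomial.eval_mul, Polynomial.eval_C,
      Polynomial.eval_pow, Polynomial.eval_X, mul_comm]
  have hP0 : P = 0 := by
    classical
    have := Fintype.ofFinite {c : k // c ^ p ^ (f * (N' + 1)) = c}
    refine Polynomial.eq_zero_of_natDegree_lt_card_of_eval_eq_zero P
      (f := ((↑) : {c : k // c ^ p ^ (f * (N' + 1)) = c} → k)) Subtype.val_injective
      (fun c => hroot c c.2) ?_
    rw [← Nat.card_eq_fintype_card, hcard]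
    exact hdeg.trans_lt (Nat.pow_lt_pow_right hp1 (by gcongr; omega))
  have h1 := congrArg (fun Q : k[X] => Q.coeff 1) hP0
  simp only [hP, Polynomial.finsetSum_coeff, Polynomial.coeff_zero] at h1
  rw [Finset.sum_eq_single 0] at h1
  · simp at h1
    exact hφv h1
  · intro i _ hi
    have : 1 < p ^ (f * i) := Nat.one_lt_pow (Nat.mul_ne_zero hf.ne' hi) hp1
    rw [Polynomial.coeff_C_mul_X_pow, if_neg (by omega)]
  · intro h
    exact absurd (Finset.mem_range.mpr (Nat.succ_pos N')) h

/-- A periodic `q`-semilinear map has exactly `q ^ dim` fixed vectors. -/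
theorem natCard_fixed [FiniteDimensional k V] (hf : 0 < f)
    (hu : ∀ (c : k) (v : V), u (c • v) = c ^ p ^ f • u v)
    (hper : ∀ v : V, ∃ N, 0 < N ∧ u^[N] v = v) :
    Finite {v : V // u v = v} ∧
      Nat.card {v : V // u v = v} = (p ^ f) ^ Module.finrank k V := by
  classical
  obtain ⟨hfin, hcard⟩ := natCard_pow_eq_self (k := k) p hf
  obtain ⟨s, hs, hspan, hli⟩ := exists_linearIndependent k {v : V | u v = v}
  rw [span_fixed p hf hu hper] at hspan
  let b : Module.Basis s k V := Module.Basis.mk hli (by rw [Subtype.range_coe]; exact hspan.ge)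
  have : Fintype s := FiniteDimensional.fintypeBasisIndex b
  have hb : ∀ i, u (b i) = b i := fun i => by
    rw [show b i = (i : V) by simp [b]]
    exact hs i.2
  have huw : ∀ a : s → k, u (∑ i, a i • b i) = ∑ i, a i ^ p ^ f • b i := fun a => by
    simp only [map_sum, hu, hb]
  have hrepr : ∀ v, u v = v ↔ ∀ i, b.repr v i ^ p ^ f = b.repr v i := by
    intro v
    have h := huw fun i => b.repr v i
    rw [b.sum_repr] at h
    constructor
    · intro hv i
      rw [hv] at h
      have := congrArg (fun w => b.repr w i) h.symm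
      simpa [Finsupp.single_apply] using this
    · intro hv
      rw [h, Finset.sum_congr rfl fun i _ => by rw [hv i], b.sum_repr]
  let e : {v : V // u v = v} ≃ (s → {c : k // c ^ p ^ f = c}) :=
    (Equiv.subtypeEquiv b.equivFun.toEquiv fun v => by
      simpa [Module.Basis.equivFun_apply] using hrepr v).trans
      (Equiv.subtypePiEquivPi (p := fun (_ : s) (c : k) => c ^ p ^ f = c))
  refine ⟨Finite.of_equiv _ e.symm, ?_⟩
  rw [Nat.card_congr e, Nat.card_fun, hcard, Nat.card_eq_fintype_card,
    Module.finrank_eq_card_basis b]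

end Fermat.Agent.TwoAdic.ClassNumber
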