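import Fermat.Agent.Curve.Duality
import Fermat.Agent.TwoAdic.ClassNumber.Semilinear
import Fermat.Prelude.Def_AlgebraicCurve_BaseChangeGalois

/-!
# Frobenius descent for function fields over an algebraically closed field

`IsFrob g p f`: a semilinear automorphism over `a ↦ a ^ (p ^ f)` all of whose elements are periodic.
It has finitely many fixed places, every place is periodic, and the effective divisors fixed by it
in a fixed divisor class correspond to the nonzero fixed vectors of a periodic semilinear map on a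
Riemann–Roch space.

Team LT2, owner helper45.
-/

set_option autoImplicit false
set_option linter.unusedSectionVars false

noncomputable section

open AlgebraicCurve Fermat.Agent.Curve

namespace Fermat.Agent.TwoAdic.ClassNumber

variable {k F : Type*} [Field k] [IsAlgClosed k] [Field F] [Algebra k F] [IsFunctionField1 k F]
variable {p : ℕ} [Fact p.Prime] [CharP k p] {f : ℕ}

/-- A Frobenius of a function field: semilinear over `a ↦ a ^ (p ^ f)`, all elements periodic. -/
structure IsFrob (g : SemilinearAut k F) (p f : ℕ) : Prop where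
  pos : 0 < f
  base : ∀ a : k, SemilinearAut.baseAut g a = a ^ p ^ f
  periodic : ∀ x : F, ∃ N, 0 < N ∧ g ^ N • x = x

variable {g : SemilinearAut k F}

theorem pow_smul_eq_of_dvd {α : Type*} [MulAction (SemilinearAut k F) α] {x : α} {N M : ℕ}
    (h : g ^ N • x = x) (hd : N ∣ M) : g ^ M • x = x := by
  obtain ⟨c, rfl⟩ := hd
  induction c with
  | zero => simp
  | succ c ih => rw [Nat.mul_succ, pow_add, mul_smul, h, ih]

theorem baseAut_pow (hg : IsFrob g p f) (n : ℕ) (a : k) :
    SemilinearAut.baseAut (g ^ n) a = a ^ p ^ (f * n) := by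
  induction n generalizing a with
  | zero => simp
  | succ n ih =>
    rw [pow_succ', SemilinearAut.baseAut_mul, RingAut.mul_apply, ih, hg.base, ← pow_mul, ← pow_add,
      Nat.mul_succ]

theorem IsFrob.pow (hg : IsFrob g p f) {n : ℕ} (hn : 0 < n) : IsFrob (g ^ n) p (f * n) where
  pos := Nat.mul_pos hg.pos hn
  base := baseAut_pow hg n
  periodic x := by
    obtain ⟨N, hN, hx⟩ := hg.periodic x
    exact ⟨N, hN, by rw [← pow_mul]; exact pow_smul_eq_of_dvd hx (dvd_mul_left N n)⟩

theorem smul_algebraMap_of_isFrob (hg : IsFrob g p f) (a : k) :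
    g • algebraMap k F a = algebraMap k F (a ^ p ^ f) := by
  rw [SemilinearAut.smul_algebraMap, hg.base]

theorem smul_smul_const (hg : IsFrob g p f) (a : k) (x : F) :
    g • (a • x) = a ^ p ^ f • (g • x) := by
  rw [Algebra.smul_def, smul_mul', smul_algebraMap_of_isFrob hg, ← Algebra.smul_def]

theorem IsFrob.periodic_place (hg : IsFrob g p f) (P : Place k F) : ∃ N, 0 < N ∧ g ^ N • P = P := by
  obtain ⟨x, -, hx⟩ := exists_unique_pole (K := k) P
  obtain ⟨N, hN, hxN⟩ := hg.periodic x
  refine ⟨N, hN, (hx _).mp ?_⟩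
  have h := SemilinearAut.ord_smul (g ^ N) P x
  rw [hxN] at h
  rw [h]
  exact (hx P).mpr rfl

theorem IsFrob.periodic_divisor (hg : IsFrob g p f) (D : Divisor k F) :
    ∃ N, 0 < N ∧ g ^ N • D = D := by
  induction D using Finsupp.induction with
  | zero => exact ⟨1, one_pos, smul_zero _⟩
  | single_add v a D _ _ ih =>
    obtain ⟨M, hM, hv⟩ := hg.periodic_place v
    obtain ⟨N, hN, hD⟩ := ih
    refine ⟨M * N, Nat.mul_pos hM hN, ?_⟩
    rw [smul_add, SemilinearAut.smul_single, pow_smul_eq_of_dvd hv (dvd_mul_right M N),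
      pow_smul_eq_of_dvd hD (dvd_mul_left N M)]

/-- A Frobenius fixes finitely many places. -/
theorem IsFrob.finite_fixed_place (hg : IsFrob g p f) :
    {v : Place k F | g • v = v}.Finite := by
  obtain ⟨x, hx, -⟩ := IsFunctionField1.exists_transcendental' (K := k) (F := F)
  obtain ⟨N, hN, hxN⟩ := hg.periodic x
  obtain ⟨hfin, -⟩ := natCard_pow_eq_self (k := k) p (e := f * N) (Nat.mul_pos hg.pos hN)
  refine ((finite_ord_ne_zero (K := k) x).union (Set.finite_iUnion fun c :
    {c : k // c ^ p ^ (f * N) = c} => finite_ord_ne_zero (K := k) (x - algebraMap k F c))).subset ?_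
  intro v (hv : g • v = v)
  by_contra hnot
  simp only [Set.mem_union, Set.mem_iUnion, Set.mem_ofPred_eq, not_or, not_not, not_exists] at hnot
  obtain ⟨hx0, hall⟩ := hnot
  obtain ⟨c, hc⟩ := exists_sub_algebraMap_ord_pos v (mem_of_ord_nonneg v hx0.ge)
  have hne : ∀ a : k, x - algebraMap k F a ≠ 0 := fun a h =>
    hx (sub_eq_zero.mp h ▸ isAlgebraic_algebraMap a)
  have hpos : 0 < v.ord (x - algebraMap k F c) := hc.resolve_left (hne c)
  have hpos' : 0 < v.ord (x - algebraMap k F (c ^ p ^ (f * N))) := by
    have h := SemilinearAut.ord_smul (g ^ N) v (x - algebraMap k F c)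
    rw [pow_smul_eq_of_dvd (N := 1) (by rwa [pow_one]) (one_dvd N), smul_sub, hxN,
      smul_algebraMap_of_isFrob (hg.pow hN)] at h
    omega
  by_cases hcc : c ^ p ^ (f * N) = c
  · exact absurd (hall ⟨c, hcc⟩) (ne_of_gt hpos)
  · have h1 : v.ord (algebraMap k F (c - c ^ p ^ (f * N))) = 0 := ord_algebraMap v _
    have hne' : algebraMap k F (c - c ^ p ^ (f * N)) ≠ 0 := by
      exact (map_ne_zero _).mpr (sub_ne_zero.mpr (Ne.symm hcc))
    have h3 : v.ord (algebraMap k F (c - c ^ p ^ (f * N)) + (x - algebraMap k F c)) = 0 :=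
      (ord_add_eq_of_lt v hne' (by omega)).trans h1
    rw [map_sub, show algebraMap k F c - algebraMap k F (c ^ p ^ (f * N)) + (x - algebraMap k F c) =
      x - algebraMap k F (c ^ p ^ (f * N)) by ring] at h3
    omega

/-! ### Divisors of functions -/

theorem divisorOf_mul {x y : F} (hx : x ≠ 0) (hy : y ≠ 0) :
    divisorOf (K := k) (x * y) = divisorOf x + divisorOf y :=
  Finsupp.ext fun v => by simp [Place.ord_mul v hx hy]

theorem divisorOf_algebraMap (a : k) : divisorOf (K := k) (algebraMap k F a) = 0 :=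
  Finsupp.ext fun v => by simp [ord_algebraMap]

theorem smul_divisorOf (h : SemilinearAut k F) (x : F) :
    h • divisorOf (K := k) x = divisorOf (h • x) := by
  ext v
  have := SemilinearAut.ord_smul h (h⁻¹ • v) x
  rw [smul_inv_smul] at this
  rw [SemilinearAut.divisor_smul_apply, divisorOf_apply, divisorOf_apply, this]

theorem exists_eq_smul_of_divisorOf_eq {x y : F} (hx : x ≠ 0) (hy : y ≠ 0)
    (h : divisorOf (K := k) x = divisorOf y) : ∃ a : k, a ≠ 0 ∧ y = a • x := by
  have hmem : y / x ∈ riemannRochSpace (0 : Divisor k F) := mem_riemannRochSpace_iff.mpr fun v =>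
    Or.inr <| by
      have := DFunLike.congr_fun h v
      simp only [divisorOf_apply] at this
      rw [ord_div v hy hx, this]
      simp
  rw [riemannRochSpace_zero, Submodule.mem_span_singleton] at hmem
  obtain ⟨a, ha⟩ := hmem
  have hyx : y = a • x := by
    rw [Algebra.smul_def, mul_one] at ha
    rw [Algebra.smul_def, ha, div_mul_cancel₀ y hx]
  exact ⟨a, fun h0 => hy (by rw [hyx, h0, zero_smul]), hyx⟩

theorem mem_riemannRochSpace_iff_le {D : Divisor k F} {x : F} :
    x ∈ riemannRochSpace D ↔ x = 0 ∨ 0 ≤ D + divisorOf x := by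
  rw [mem_riemannRochSpace_iff]
  rcases eq_or_ne x 0 with rfl | hx
  · simp
  · simp only [hx, false_or, Finsupp.le_def, Finsupp.coe_zero, Pi.zero_apply, Finsupp.add_apply,
      divisorOf_apply]
    exact forall_congr' fun v => by omega

/-! ### The twisted action on a Riemann–Roch space -/

section Twist

variable (hg : IsFrob g p f) {D : Divisor k F} {w : F} (hw : w ≠ 0)
  (hdiv : divisorOf w = g • D - D)

include hw hdiv in
theorem twist_mem {x : F} (hx : x ∈ riemannRochSpace D) : g • x * w ∈ riemannRochSpace D := by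
  rw [mem_riemannRochSpace_iff_le] at hx ⊢
  rcases eq_or_ne x 0 with rfl | hx0
  · exact Or.inl (by rw [smul_zero, zero_mul])
  right
  have h := hx.resolve_left hx0
  have hgx : g • x ≠ 0 := (smul_ne_zero_iff_ne g).mpr hx0
  rw [divisorOf_mul hgx hw, hdiv, ← smul_divisorOf,
    show D + (g • divisorOf x + (g • D - D)) = g • (D + divisorOf x) by rw [smul_add]; abel]
  intro v
  rw [SemilinearAut.divisor_smul_apply]
  exact h _

/-- `x ↦ (g • x) w` on `L(D)`. -/
def twist : riemannRochSpace D →+ riemannRochSpace D :=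
  AddMonoidHom.mk' (fun x => ⟨g • (x : F) * w, twist_mem hw hdiv x.2⟩) fun x y =>
    Subtype.ext (by
      show g • ((x : F) + y) * w = g • (x : F) * w + g • (y : F) * w
      rw [smul_add, add_mul])

theorem coe_twist (x : riemannRochSpace D) : (twist hw hdiv x : F) = g • (x : F) * w := rfl

include hg in
theorem twist_smul (a : k) (x : riemannRochSpace D) :
    twist hw hdiv (a • x) = a ^ p ^ f • twist hw hdiv x := by
  refine Subtype.ext ?_
  rw [coe_twist, Submodule.coe_smul, Submodule.coe_smul, coe_twist, smul_smul_const hg,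
    smul_mul_assoc]

include hg in
theorem twist_periodic (x : riemannRochSpace D) :
    ∃ N, 0 < N ∧ (twist hw hdiv)^[N] x = x := by
  obtain ⟨Nx, hNx, hxN⟩ := hg.periodic x
  obtain ⟨Nw, hNw, hwN⟩ := hg.periodic w
  obtain ⟨Nd, hNd, hDN⟩ := hg.periodic_divisor D
  set t := Nx * Nw * Nd with ht
  have ht0 : 0 < t := Nat.mul_pos (Nat.mul_pos hNx hNw) hNd
  have hD : g ^ t • D = D := pow_smul_eq_of_dvd hDN (dvd_mul_left _ _)
  have hone : divisorOf (K := k) (1 : F) = g ^ t • D - D := by
    rw [hD, sub_self, ← map_one (algebraMap k F), divisorOf_algebraMap]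
  set u' := twist (g := g ^ t) one_ne_zero hone
  have hu' : ∀ y : riemannRochSpace D, u' y = y ↔ g ^ t • (y : F) = y := fun y => by
    rw [Subtype.ext_iff, coe_twist, mul_one]
  obtain ⟨hfin, -⟩ := natCard_fixed p (u := u') (hg.pow ht0).pos
    (fun a y => twist_smul (hg.pow ht0) one_ne_zero hone a y) (fun y => by
      obtain ⟨N, hN, hy⟩ := (hg.pow ht0).periodic y
      refine ⟨N, hN, Subtype.ext ?_⟩
      have : ∀ m, ((u'^[m] y : riemannRochSpace D) : F) = (g ^ t) ^ m • (y : F) := fun m => by
        induction m with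
        | zero => simp
        | succ m ih =>
          rw [Function.iterate_succ_apply', coe_twist, mul_one, ih, pow_succ' (g ^ t), mul_smul]
      rw [this, hy])
  have hstab : ∀ y : riemannRochSpace D, u' y = y → u' (twist hw hdiv y) = twist hw hdiv y := by
    intro y hy
    rw [hu'] at hy ⊢
    rw [coe_twist, smul_mul', ← mul_smul, ← pow_succ, pow_succ', mul_smul, hy,
      pow_smul_eq_of_dvd hwN (Dvd.dvd.mul_right (dvd_mul_left _ _) _)]
  have hx : u' x = x := (hu' x).mpr (pow_smul_eq_of_dvd hxN
    (Dvd.dvd.mul_right (dvd_mul_right _ _) _))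
  have hmem : ∀ m, u' ((twist hw hdiv)^[m] x) = (twist hw hdiv)^[m] x := fun m => by
    induction m with
    | zero => exact hx
    | succ m ih => rw [Function.iterate_succ_apply']; exact hstab _ ih
  have hinj : Function.Injective (twist hw hdiv) := fun a b hab => by
    have := congrArg Subtype.val hab
    rw [coe_twist, coe_twist, mul_left_inj' hw] at this
    exact Subtype.ext (smul_left_cancel g this)
  obtain ⟨i, j, hij, he⟩ := Finite.exists_ne_map_eq_of_infinite
    fun m : ℕ => (⟨_, hmem m⟩ : {y : riemannRochSpace D // u' y = y})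
  have he' : (twist hw hdiv)^[i] x = (twist hw hdiv)^[j] x := congrArg Subtype.val he
  rcases Nat.lt_or_gt_of_ne hij with h | h
  · exact ⟨j - i, by omega, (hinj.iterate i) (by
      rw [← Function.iterate_add_apply, show i + (j - i) = j by omega, he'])⟩
  · exact ⟨i - j, by omega, (hinj.iterate j) (by
      rw [← Function.iterate_add_apply, show j + (i - j) = i by omega, he'])⟩

include hg in
theorem natCard_fixed_twist :
    Finite {x : riemannRochSpace D // twist hw hdiv x = x} ∧
      Nat.card {x : riemannRochSpace D // twist hw hdiv x = x} = (p ^ f) ^ ell D :=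
  natCard_fixed p hg.pos (twist_smul hg hw hdiv) (twist_periodic hg hw hdiv)

end Twist

end Fermat.Agent.TwoAdic.ClassNumber
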