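import Fermat.Agent.TwoAdic.ClassNumber.ModularFrob
import Fermat.Agent.TwoAdic.ClassNumber.Descent
import Fermat.Agent.Reduction.ModularData
import Fermat.Agent.EC.Red.ResidueQbar
import Fermat.Prelude.Def_FLTPrelim_Ramification

/-!
# The Frobenius of `k(X₀(N))` at a place of `ℚ̄`

The coefficientwise Frobenius is a Frobenius in the sense of `Descent`, and the residue field of a
place of `ℚ̄` over `p` satisfies the periodicity hypothesis.
-/

set_option autoImplicit false

noncomputable section

open ModularCurve AlgebraicCurve

namespace Fermat.Agent.TwoAdic.ClassNumber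

/-- The coefficientwise `p`-power map is a Frobenius of `k(X₀(N))`. -/
theorem isFrob_modular {k : Type*} [Field k] [IsAlgClosed k] (p : ℕ) [Fact p.Prime] [CharP k p]
    (N : ℕ) [NeZero N] (hper : ∀ a : k, ∃ m, 0 < m ∧ a ^ p ^ m = a) :
    IsFrob (modularSemilinear N (periodicFrobenius p hper)) p 1 where
  pos := one_pos
  base a := by rw [baseAut_modularSemilinear, periodicFrobenius_apply, pow_one]
  periodic := exists_pow_modularFrobenius_smul p N hper

/-- A Frobenius of the special fibre of `X₀(N)` at a place of `ℚ̄` over `p`. -/
theorem exists_isFrob_residueField (A : ValuationSubring (AlgebraicClosure ℚ)) {p : ℕ}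
    [Fact p.Prime] (hA : A.LiesOverPrime p) (N : ℕ) [NeZero N] :
    haveI : IsAlgClosed (IsLocalRing.ResidueField A) := EC.isAlgClosed_residueField A
    haveI : CharP (IsLocalRing.ResidueField A) p := EC.charP_residueField A Fact.out hA
    ∃ g : SemilinearAut (IsLocalRing.ResidueField A)
      (modularFunctionFieldFullC (IsLocalRing.ResidueField A) N), IsFrob g p 1 := by
  haveI : IsAlgClosed (IsLocalRing.ResidueField A) := EC.isAlgClosed_residueField A
  haveI : CharP (IsLocalRing.ResidueField A) p := EC.charP_residueField A Fact.out hA
  exact ⟨_, isFrob_modular p N fun a => EC.exists_pow_q_pow_eq_self A Fact.out hA a⟩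

end Fermat.Agent.TwoAdic.ClassNumber
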