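import Fermat.Agent.TwoAdic.ClassNumber.Descent
import Mathlib.GroupTheory.GroupAction.Period

/-!
# Fixed effective divisors and fixed divisor classes

For a Frobenius `g` with a fixed place `P₀`: effective fixed divisors of each degree form a finite
set, and those in a given fixed class number `(q ^ ℓ - 1) / (q - 1)`.  Hence finitely many fixed
classes.

Team LT2, owner helper45.
-/

set_option autoImplicit false
set_option linter.unusedSectionVars false

noncomputable section

open AlgebraicCurve Fermat.Agent.Curve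

namespace Fermat.Agent.TwoAdic.ClassNumber

variable {k F : Type*} [Field k] [IsAlgClosed k] [Field F] [Algebra k F] [IsFunctionField1 k F]
variable {p : ℕ} [Fact p.Prime] [CharP k p] {f : ℕ}
variable {g : SemilinearAut k F}

theorem degree_single_one (P : Place k F) (a : ℤ) :
    Divisor.degree (Finsupp.single P a : Divisor k F) = a := by
  rw [Divisor.degree_single, deg_eq_one P, Nat.cast_one, mul_one]

theorem eq_divisorOf_of_isPrincipal {D : Divisor k F} (h : Divisor.IsPrincipal D) :
    ∃ w : F, w ≠ 0 ∧ D = divisorOf w := by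
  obtain ⟨w, hw, hD⟩ := h
  exact ⟨w, hw, Finsupp.ext fun v => by rw [hD v, divisorOf_apply]⟩

theorem isPrincipal_divisorOf {w : F} (hw : w ≠ 0) :
    Divisor.IsPrincipal (divisorOf (K := k) w) :=
  ⟨w, hw, fun _ => rfl⟩

theorem mk_eq_mk {D E : Divisor.degZero (K := k) (F := F)} :
    Pic0.mk D = Pic0.mk E ↔ Divisor.IsPrincipal ((D : Divisor k F) - (E : Divisor k F)) := by
  refine (QuotientAddGroup.eq_iff_sub_mem).trans ?_
  rw [AddSubgroup.mem_addSubgroupOf, AddSubgroupClass.coe_sub]
  rfl

/-! ### The class map attached to a rational place -/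

/-- `D ↦ D - deg D · P₀`. -/
def normDeg (P0 : Place k F) : Divisor k F →+ Divisor.degZero (K := k) (F := F) :=
  AddMonoidHom.mk' (fun D => ⟨D - Finsupp.single P0 (Divisor.degree D), by
    rw [Divisor.mem_degZero, map_sub, degree_single_one, sub_self]⟩) fun D E => Subtype.ext (by
    show D + E - Finsupp.single P0 (Divisor.degree (D + E)) =
      D - Finsupp.single P0 (Divisor.degree D) + (E - Finsupp.single P0 (Divisor.degree E))
    rw [map_add, Finsupp.single_add]
    abel)

theorem coe_normDeg (P0 : Place k F) (D : Divisor k F) :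
    (normDeg P0 D : Divisor k F) = D - Finsupp.single P0 (Divisor.degree D) := rfl

/-- The class of `D - deg D · P₀`. -/
def cl (P0 : Place k F) : Divisor k F →+ Pic0 k F :=
  AddMonoidHom.mk' (fun D => Pic0.mk (normDeg P0 D)) fun D E => by
    rw [map_add, Pic0.mk_add]

theorem cl_apply (P0 : Place k F) (D : Divisor k F) : cl P0 D = Pic0.mk (normDeg P0 D) := rfl

theorem cl_coe (P0 : Place k F) (D : Divisor.degZero (K := k) (F := F)) :
    cl P0 D = Pic0.mk D := by
  refine congrArg Pic0.mk (Subtype.ext ?_)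
  rw [coe_normDeg, Divisor.mem_degZero.mp D.2, Finsupp.single_zero, sub_zero]

theorem cl_eq_cl (P0 : Place k F) {D E : Divisor k F} (h : Divisor.degree D = Divisor.degree E) :
    cl P0 D = cl P0 E ↔ Divisor.IsPrincipal (D - E) := by
  rw [cl_apply, cl_apply, mk_eq_mk, coe_normDeg, coe_normDeg, h, sub_sub_sub_cancel_right]

theorem cl_smul {P0 : Place k F} (hP0 : g • P0 = P0) (D : Divisor k F) :
    cl P0 (g • D) = g • cl P0 D := by
  rw [cl_apply, cl_apply, SemilinearAut.pic0_smul_mk]
  refine congrArg Pic0.mk (Subtype.ext ?_)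
  rw [SemilinearAut.coe_degZeroSMulHom, coe_normDeg, coe_normDeg, SemilinearAut.degree_smul,
    smul_sub, SemilinearAut.smul_single, hP0]

theorem cl_single_self (P0 : Place k F) (a : ℤ) : cl P0 (Finsupp.single P0 a) = 0 := by
  rw [cl_apply, show normDeg P0 (Finsupp.single P0 a) = 0 from Subtype.ext (by
    rw [coe_normDeg, degree_single_one, sub_self, ZeroMemClass.coe_zero])]
  rfl

/-- The classes fixed by `g`. -/
def fixedPic (g : SemilinearAut k F) : AddSubgroup (Pic0 k F) where
  carrier := {x | g • x = x}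
  zero_mem' := smul_zero (A := Pic0 k F) g
  add_mem' {x y} hx hy := by
    simp only [Set.mem_ofPred_eq] at hx hy ⊢
    rw [smul_add, hx, hy]
  neg_mem' {x} hx := by
    simp only [Set.mem_ofPred_eq] at hx ⊢
    rw [smul_neg, hx]

theorem mem_fixedPic {x : Pic0 k F} : x ∈ fixedPic g ↔ g • x = x := Iff.rfl

/-! ### Orbit sums -/

/-- `∑_{i < r} (g ^ i v)`. -/
def orb (g : SemilinearAut k F) (v : Place k F) (r : ℕ) : Divisor k F :=
  ∑ i ∈ Finset.range r, Finsupp.single (g ^ i • v) (1 : ℤ)

theorem degree_orb (v : Place k F) (r : ℕ) : Divisor.degree (orb g v r) = r := by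
  simp [orb, deg_eq_one]

theorem orb_nonneg (v : Place k F) (r : ℕ) : 0 ≤ orb g v r :=
  Finset.sum_nonneg fun i _ => Finsupp.single_nonneg.mpr zero_le_one

theorem smul_orb {v : Place k F} {r : ℕ} (hv : g ^ r • v = v) : g • orb g v r = orb g v r := by
  rcases r with - | r
  · simp [orb]
  unfold orb
  rw [Finset.smul_sum]
  conv_lhs => arg 2; ext i; rw [SemilinearAut.smul_single, ← mul_smul, ← pow_succ']
  rw [Finset.sum_range_succ (fun i => Finsupp.single (g ^ (i + 1) • v) (1 : ℤ)), hv,
    Finset.sum_range_succ' (fun i => Finsupp.single (g ^ i • v) (1 : ℤ)), pow_zero, one_smul]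

theorem orb_mul {v : Place k F} {m : ℕ} (hv : g ^ m • v = v) (j : ℕ) :
    orb g v (m * j) = j • orb g v m := by
  induction j with
  | zero => simp [orb]
  | succ j ih =>
    rw [Nat.mul_succ, orb, Finset.sum_range_add, succ_nsmul, ← ih]
    refine congrArg (orb g v (m * j) + ·) (Finset.sum_congr rfl fun i _ => ?_)
    rw [add_comm, pow_add, mul_smul, pow_smul_eq_of_dvd hv (dvd_mul_right m j)]

/-- A fixed divisor is constant on orbits. -/
theorem apply_pow_smul {E : Divisor k F} (hE : g • E = E) (v : Place k F) (i : ℕ) :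
    E (g ^ i • v) = E v := by
  have h : g ^ i • E = E := pow_smul_eq_of_dvd (N := 1) (by rwa [pow_one]) (one_dvd i)
  conv_lhs => rw [← h, SemilinearAut.divisor_smul_apply_smul]

theorem period_pos (hg : IsFrob g p f) (v : Place k F) : 0 < MulAction.period g v := by
  obtain ⟨N, hN, hv⟩ := hg.periodic_place v
  exact MulAction.period_pos_of_fixed hN hv

theorem orb_period_apply (hg : IsFrob g p f) (v : Place k F) :
    orb g v (MulAction.period g v) v = 1 := by
  classical
  simp only [orb, Finsupp.finsetSum_apply, Finsupp.single_apply]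
  rw [Finset.sum_eq_single 0]
  · simp
  · intro i hi hi0
    rw [Finset.mem_range] at hi
    exact if_neg (MulAction.pow_smul_ne_of_lt_period (Nat.pos_of_ne_zero hi0) hi)
  · intro h
    exact absurd (Finset.mem_range.mpr (period_pos hg v)) h

theorem nsmul_orb_period_le_iff (hg : IsFrob g p f) {E : Divisor k F} (hE0 : 0 ≤ E) (hE : g • E = E)
    (v : Place k F) (j : ℕ) :
    j • orb g v (MulAction.period g v) ≤ E ↔ (j : ℤ) ≤ E v := by
  classical
  constructor
  · intro h
    have := h v
    rwa [Finsupp.smul_apply, orb_period_apply hg, nsmul_one] at this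
  · intro h x
    simp only [Finsupp.smul_apply, orb, Finsupp.finsetSum_apply, Finsupp.single_apply]
    by_cases hx : ∃ i ∈ Finset.range (MulAction.period g v), g ^ i • v = x
    · obtain ⟨i, hi, rfl⟩ := hx
      rw [Finset.sum_eq_single i]
      · rw [if_pos rfl, nsmul_one, apply_pow_smul hE]
        exact h
      · intro i' hi' hne
        rw [Finset.mem_range] at hi hi'
        refine if_neg fun he => ?_
        rcases Nat.lt_or_gt_of_ne hne with hlt | hlt
        · rw [show i = i' + (i - i') by omega, pow_add, mul_smul] at he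
          exact MulAction.pow_smul_ne_of_lt_period (by omega) (by omega)
            (smul_left_cancel _ he).symm
        · rw [show i' = i + (i' - i) by omega, pow_add, mul_smul] at he
          exact MulAction.pow_smul_ne_of_lt_period (by omega) (by omega) (smul_left_cancel _ he)
      · exact fun hn => absurd hi hn
    · push Not at hx
      rw [Finset.sum_eq_zero fun i hi => if_neg (hx i hi), nsmul_zero]
      exact hE0 x

/-! ### Fixed effective divisors -/

/-- Effective divisors of degree `n` fixed by `g`. -/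
abbrev EffFixed (g : SemilinearAut k F) (n : ℕ) : Type _ :=
  {E : Divisor k F // 0 ≤ E ∧ g • E = E ∧ Divisor.degree E = n}

theorem EffFixed.mul_period_le (hg : IsFrob g p f) {n : ℕ} (E : EffFixed g n) (v : Place k F)
    {j : ℕ} (hj : (j : ℤ) ≤ E.1 v) : MulAction.period g v * j ≤ n := by
  have hle := (nsmul_orb_period_le_iff hg E.2.1 E.2.2.1 v j).mpr hj
  have h := degree_nonneg_of_le (sub_nonneg.mpr hle)
  rw [map_sub, E.2.2.2, map_nsmul, degree_orb, nsmul_eq_mul] at h
  have : ((MulAction.period g v * j : ℕ) : ℤ) ≤ n := by push_cast; linarith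
  exact_mod_cast this

theorem EffFixed.apply_le (hg : IsFrob g p f) {n : ℕ} (E : EffFixed g n) (v : Place k F) :
    E.1 v ≤ n := by
  have h0 : 0 ≤ E.1 v := E.2.1 v
  have h := E.mul_period_le hg v (j := (E.1 v).toNat) (by omega)
  have := Nat.le_mul_of_pos_left (E.1 v).toNat (period_pos hg v)
  omega

theorem EffFixed.finite (hg : IsFrob g p f) (n : ℕ) : Finite (EffFixed g n) := by
  have hS : (⋃ r ∈ Finset.Icc 1 n, {v : Place k F | g ^ r • v = v}).Finite :=
    Set.Finite.biUnion (Finset.finite_toSet _) fun r hr => by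
      simp only [Finset.mem_coe, Finset.mem_Icc] at hr
      exact (hg.pow (show 0 < r by omega)).finite_fixed_place
  have := hS.to_subtype
  have hsupp : ∀ (E : EffFixed g n) v, E.1 v ≠ 0 →
      v ∈ ⋃ r ∈ Finset.Icc 1 n, {v : Place k F | g ^ r • v = v} := fun E v hv => by
    have h0 : 0 ≤ E.1 v := E.2.1 v
    have h := E.mul_period_le hg v (j := 1) (by omega)
    simp only [Set.mem_iUnion, Finset.mem_Icc, Set.mem_ofPred_eq]
    exact ⟨MulAction.period g v, ⟨period_pos hg v, by omega⟩, MulAction.pow_period_smul g v⟩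
  refine Finite.of_injective (fun E : EffFixed g n => fun v :
    (⋃ r ∈ Finset.Icc 1 n, {v : Place k F | g ^ r • v = v} : Set (Place k F)) =>
      (⟨(E.1 v).toNat, by have := E.apply_le hg v.1; omega⟩ : Fin (n + 1))) fun E E' h => ?_
  refine Subtype.ext (Finsupp.ext fun v => ?_)
  have h1 : 0 ≤ E.1 v := E.2.1 v
  have h2 : 0 ≤ E'.1 v := E'.2.1 v
  by_cases hv : v ∈ ⋃ r ∈ Finset.Icc 1 n, {v : Place k F | g ^ r • v = v}
  · have := congrArg Fin.val (congrFun h ⟨v, hv⟩)
    simp only at this
    omega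
  · rw [not_imp_comm.mp (hsupp E v) hv, not_imp_comm.mp (hsupp E' v) hv]

/-! ### The effective divisors in a fixed class -/

theorem natCard_ne_add_one {α : Type*} [Finite α] (a0 : α) :
    Nat.card {a : α // a ≠ a0} + 1 = Nat.card α := by
  classical
  rw [← Finite.card_option, Nat.card_congr (Equiv.optionSubtypeNe a0)]

theorem natCard_fibre (hg : IsFrob g p f) {P0 : Place k F} (hP0 : g • P0 = P0) (n : ℕ)
    (D : Divisor.degZero (K := k) (F := F)) (hD : g • Pic0.mk D = Pic0.mk D) :
    Nat.card {E : EffFixed g n // cl P0 E.1 = Pic0.mk D} * (p ^ f - 1) + 1 =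
      (p ^ f) ^ ell ((D : Divisor k F) + Finsupp.single P0 (n : ℤ)) := by
  classical
  rw [SemilinearAut.pic0_smul_mk, mk_eq_mk, SemilinearAut.coe_degZeroSMulHom] at hD
  obtain ⟨w, hw, hdivw⟩ := eq_divisorOf_of_isPrincipal hD
  set D' := (D : Divisor k F) + Finsupp.single P0 (n : ℤ) with hD'
  have hdiv : divisorOf w = g • D' - D' := by
    rw [← hdivw, hD', smul_add, SemilinearAut.smul_single, hP0, add_sub_add_right_eq_sub]
  have hdeg : Divisor.degree D' = n := by
    rw [hD', map_add, Divisor.mem_degZero.mp D.2, degree_single_one, zero_add]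
  obtain ⟨hfinV, hcardV⟩ := natCard_fixed_twist hg hw hdiv
  obtain ⟨hfinq, hcardq⟩ := natCard_pow_eq_self (k := k) p hg.pos
  have hq0 : (0 : k) ^ p ^ f = 0 := zero_pow (pow_ne_zero _ (Fact.out : p.Prime).ne_zero)
  set V := {x : riemannRochSpace D' // twist hw hdiv x = x}
  set U := {c : k // c ^ p ^ f = c}
  -- a fixed function for each divisor of the fibre
  have key : ∀ E : {E : EffFixed g n // cl P0 E.1 = Pic0.mk D},
      ∃ x : V, (x.1 : F) ≠ 0 ∧ D' + divisorOf (x.1 : F) = E.1.1 := by
    intro E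
    obtain ⟨⟨E, hE0, hEg, hEn⟩, hEx⟩ := E
    have hcl : cl P0 E = cl P0 D' := by
      rw [hEx, hD', map_add, cl_single_self, add_zero, cl_coe]
    obtain ⟨h, hh, hdh⟩ := eq_divisorOf_of_isPrincipal ((cl_eq_cl P0 (hEn.trans hdeg.symm)).mp hcl)
    have hE' : D' + divisorOf h = E := by rw [← hdh]; abel
    have hmem : h ∈ riemannRochSpace D' :=
      mem_riemannRochSpace_iff_le.mpr (Or.inr (hE'.symm ▸ hE0))
    have hgh : g • h ≠ 0 := (smul_ne_zero_iff_ne g).mpr hh
    obtain ⟨c, hc, hce⟩ := exists_eq_smul_of_divisorOf_eq (k := k) hh (mul_ne_zero hgh hw) (by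
      rw [divisorOf_mul hgh hw, ← smul_divisorOf, hdiv, ← hdh, smul_sub, hEg]; abel)
    obtain ⟨a, ha⟩ := IsAlgClosed.exists_pow_nat_eq c⁻¹
      (show 0 < p ^ f - 1 from Nat.sub_pos_of_lt (Nat.one_lt_pow hg.pos.ne'
        (Fact.out : p.Prime).one_lt))
    have ha0 : a ≠ 0 := fun h0 => by
      rw [h0, zero_pow (Nat.sub_pos_of_lt (Nat.one_lt_pow hg.pos.ne'
        (Fact.out : p.Prime).one_lt)).ne'] at ha
      exact inv_ne_zero hc ha.symm
    have hfix : g • (a • h) * w = a • h := by
      rw [smul_smul_const hg, smul_mul_assoc, hce, smul_smul,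
        ← pow_sub_one_mul (pow_ne_zero _ (Fact.out : p.Prime).ne_zero) a, ha,
        mul_right_comm, inv_mul_cancel₀ hc, one_mul]
    refine ⟨⟨⟨a • h, Submodule.smul_mem _ a hmem⟩, Subtype.ext hfix⟩, smul_ne_zero ha0 hh, ?_⟩
    show D' + divisorOf (a • h) = E
    rw [Algebra.smul_def, divisorOf_mul ((map_ne_zero _).mpr ha0) hh, divisorOf_algebraMap,
      zero_add, hE']
  choose x hx0 hxE using key
  let U' := {c : U // c ≠ ⟨0, hq0⟩}
  let V' := {y : V // y ≠ ⟨0, map_zero _⟩}
  have hU' : ∀ c : U', (c.1.1 : k) ≠ 0 := fun c h => c.2 (Subtype.ext h)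
  let e : {E : EffFixed g n // cl P0 E.1 = Pic0.mk D} × U' → V' := fun z =>
    ⟨⟨z.2.1.1 • (x z.1).1, by rw [twist_smul hg, z.2.1.2, (x z.1).2]⟩, fun h => by
      have := congrArg (fun y : V => (y.1 : F)) h
      exact smul_ne_zero (hU' z.2) (hx0 z.1) this⟩
  have hinj : Function.Injective e := by
    rintro ⟨E, c⟩ ⟨E', c'⟩ h
    have h' : (c.1.1 • ((x E).1 : F)) = c'.1.1 • ((x E').1 : F) :=
      congrArg (fun y : V' => (y.1.1 : F)) h
    have hE : E = E' := by
      refine Subtype.ext (Subtype.ext ?_)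
      rw [← hxE E, ← hxE E']
      have := congrArg (divisorOf (K := k)) h'
      rw [Algebra.smul_def, divisorOf_mul ((map_ne_zero _).mpr (hU' c)) (hx0 E),
        divisorOf_algebraMap, zero_add, Algebra.smul_def,
        divisorOf_mul ((map_ne_zero _).mpr (hU' c')) (hx0 E'), divisorOf_algebraMap,
        zero_add] at this
      rw [this]
    subst hE
    exact Prod.ext rfl (Subtype.ext (Subtype.ext (smul_left_injective k (hx0 E) h')))
  have hsurj : Function.Surjective e := by
    rintro ⟨⟨y, hy⟩, hy0⟩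
    have hyne : (y : F) ≠ 0 := fun h => hy0 (Subtype.ext (Subtype.ext h))
    have hfixy : g • (y : F) * w = y := congrArg Subtype.val hy
    have hgy : g • (y : F) ≠ 0 := (smul_ne_zero_iff_ne g).mpr hyne
    let E : EffFixed g n := ⟨D' + divisorOf (y : F),
      (mem_riemannRochSpace_iff_le.mp y.2).resolve_left hyne, by
        conv_rhs => rw [← hfixy, divisorOf_mul hgy hw, hdiv, ← smul_divisorOf]
        rw [smul_add]
        abel, by rw [map_add, degree_divisorOf, add_zero, hdeg]⟩
    have hE : cl P0 E.1 = Pic0.mk D := by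
      rw [← cl_coe P0 D, ← add_zero (cl P0 (D : Divisor k F)), ← cl_single_self P0 (n : ℤ),
        ← map_add, cl_eq_cl P0 (E.2.2.2.trans hdeg.symm)]
      show Divisor.IsPrincipal (D' + divisorOf (y : F) - D')
      rw [add_sub_cancel_left]
      exact isPrincipal_divisorOf hyne
    obtain ⟨a, ha0, hay⟩ := exists_eq_smul_of_divisorOf_eq (k := k) (hx0 ⟨E, hE⟩) hyne
      (add_left_cancel (hxE ⟨E, hE⟩))
    have haq : a ^ p ^ f = a := by
      have hx1 : g • ((x ⟨E, hE⟩).1 : F) * w = (x ⟨E, hE⟩).1 :=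
        congrArg Subtype.val (x ⟨E, hE⟩).2
      have := hfixy
      rw [hay, smul_smul_const hg, smul_mul_assoc, hx1] at this
      exact smul_left_injective k (hx0 ⟨E, hE⟩) this
    exact ⟨(⟨E, hE⟩, ⟨⟨a, haq⟩, fun h => ha0 (congrArg Subtype.val h)⟩),
      Subtype.ext (Subtype.ext (Subtype.ext hay.symm))⟩
  have hcard := Nat.card_eq_of_bijective e ⟨hinj, hsurj⟩
  rw [Nat.card_prod] at hcard
  have h1 : Nat.card U' + 1 = Nat.card U := natCard_ne_add_one _
  have h2 : Nat.card V' + 1 = Nat.card V := natCard_ne_add_one _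
  rw [hcardq] at h1
  rw [hcardV] at h2
  rw [← h2, show p ^ f - 1 = Nat.card U' by omega, hcard]

theorem ell_add_single {P0 : Place k F} (n : ℕ) (D : Divisor.degZero (K := k) (F := F)) :
    n + 1 ≤ ell ((D : Divisor k F) + Finsupp.single P0 (n : ℤ)) + genusFF k F ∧
      (2 * genusFF k F ≤ n + 1 →
        ell ((D : Divisor k F) + Finsupp.single P0 (n : ℤ)) + genusFF k F = n + 1) := by
  have hdeg : Divisor.degree ((D : Divisor k F) + Finsupp.single P0 (n : ℤ)) = n := by
    rw [map_add, Divisor.mem_degZero.mp D.2, degree_single_one, zero_add]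
  have h := riemann_roch ((D : Divisor k F) + Finsupp.single P0 (n : ℤ))
  rw [hdeg] at h
  refine ⟨by omega, fun hn => ?_⟩
  rw [specialIndex_eq_zero_of_lt_degree (D := (D : Divisor k F) + Finsupp.single P0 (n : ℤ))
    (by rw [hdeg]; omega)] at h
  omega

/-- There are finitely many fixed classes. -/
theorem finite_fixedPic (hg : IsFrob g p f) {P0 : Place k F} (hP0 : g • P0 = P0) :
    Finite (fixedPic g) := by
  have := EffFixed.finite hg (genusFF k F)
  have hmem : ∀ E : EffFixed g (genusFF k F), cl P0 E.1 ∈ fixedPic g := fun E => by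
    rw [mem_fixedPic, ← cl_smul hP0, E.2.2.1]
  refine Finite.of_surjective (fun E : EffFixed g (genusFF k F) =>
    (⟨cl P0 E.1, hmem E⟩ : fixedPic g)) fun ⟨x, hx⟩ => ?_
  obtain ⟨D, rfl⟩ := Pic0.mk_surjective x
  have h := natCard_fibre hg hP0 (genusFF k F) D hx
  obtain ⟨hl, -⟩ := ell_add_single (P0 := P0) (genusFF k F) D
  by_contra hcon
  have : IsEmpty {E : EffFixed g (genusFF k F) // cl P0 E.1 = Pic0.mk D} :=
    ⟨fun E => hcon ⟨E.1, Subtype.ext E.2⟩⟩
  rw [Nat.card_of_isEmpty, zero_mul, zero_add] at h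
  have := Nat.one_lt_pow (show ell ((D : Divisor k F) +
    Finsupp.single P0 (genusFF k F : ℤ)) ≠ 0 by omega)
    (Nat.one_lt_pow hg.pos.ne' (Fact.out : p.Prime).one_lt)
  omega

end Fermat.Agent.TwoAdic.ClassNumber
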