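import Mathlib.RingTheory.PowerSeries.Derivative
import Mathlib.RingTheory.PowerSeries.Inverse
import Mathlib.RingTheory.IntegralClosure.IntegrallyClosed
import Mathlib.Algebra.Polynomial.Reverse
import Mathlib.FieldTheory.IsAlgClosed.Basic
import Mathlib.Analysis.Complex.Polynomial.Basic
import Mathlib.Algebra.Module.ZMod
import Mathlib.RingTheory.Finiteness.Cardinality
import Mathlib.Algebra.Polynomial.Roots
import Mathlib.GroupTheory.FiniteAbelian.Basic
import Mathlib.RingTheory.PrincipalIdealDomain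
import Mathlib.RingTheory.UniqueFactorizationDomain.GCDMonoid

/-!
# Power sums and counting series of class-number type

`LogDeriv f N` says `t f' = (∑_{r ≥ 1} N r t^r) f`.  A counting sequence with the Riemann–Roch
shape is the coefficient sequence of `∏ (1 - α t) / ((1 - t)(1 - q t))` with `2 g` algebraic
integers `α`; the class number is `∏ (1 - α)`.  Two elementary facts about such numbers are proved:
the power-sum obstruction behind the surjectivity of the norm, and the bound on the divisibility of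
`∏ (1 + α ^ M + ⋯ + α ^ (M (ℓ - 1)))` by `ℓ`.

Team LT2, owner helper45.
-/

set_option autoImplicit false

noncomputable section

open Polynomial

namespace Fermat.Agent.TwoAdic.ClassNumber

/-- `t f' = (∑_{r ≥ 1} N r t ^ r) f`, coefficientwise. -/
def LogDeriv (f : PowerSeries ℂ) (N : ℕ → ℂ) : Prop :=
  ∀ n : ℕ, (n : ℂ) * PowerSeries.coeff n f =
    ∑ r ∈ Finset.Icc 1 n, N r * PowerSeries.coeff (n - r) f

theorem logDeriv_iff (f : PowerSeries ℂ) (N : ℕ → ℂ) :
    LogDeriv f N ↔
      PowerSeries.X * PowerSeries.derivative ℂ f =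
        PowerSeries.mk (fun r => if r = 0 then 0 else N r) * f := by
  rw [PowerSeries.ext_iff]
  refine forall_congr' fun n => ?_
  have hl : PowerSeries.coeff n (PowerSeries.X * PowerSeries.derivative ℂ f) =
      (n : ℂ) * PowerSeries.coeff n f := by
    cases n with
    | zero => simp
    | succ m =>
      rw [PowerSeries.coeff_succ_X_mul, PowerSeries.coeff_derivative]
      push_cast
      ring
  have hr : PowerSeries.coeff n (PowerSeries.mk (fun r => if r = 0 then 0 else N r) * f) =
      ∑ r ∈ Finset.Icc 1 n, N r * PowerSeries.coeff (n - r) f := by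
    rw [PowerSeries.coeff_mul, Finset.Nat.sum_antidiagonal_eq_sum_range_succ
      (fun i j => PowerSeries.coeff i (PowerSeries.mk fun r => if r = 0 then 0 else N r) *
        PowerSeries.coeff j f)]
    refine (Finset.sum_subset ?_ ?_).symm.trans (Finset.sum_congr rfl fun r hr => ?_)
    · intro r hr
      simp only [Finset.mem_Icc, Finset.mem_range] at hr ⊢
      omega
    · intro r hr hr'
      simp only [Finset.mem_Icc, Finset.mem_range] at hr hr'
      rw [PowerSeries.coeff_mk, if_pos (by omega), zero_mul]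
    · rw [PowerSeries.coeff_mk, if_neg (by rw [Finset.mem_Icc] at hr; omega)]
  rw [hl, hr]

theorem LogDeriv.mul {f f' : PowerSeries ℂ} {N N' : ℕ → ℂ} (h : LogDeriv f N)
    (h' : LogDeriv f' N') : LogDeriv (f * f') fun r => N r + N' r := by
  rw [logDeriv_iff] at *
  have hmk : PowerSeries.mk (fun r => if r = 0 then 0 else N r + N' r) =
      PowerSeries.mk (fun r => if r = 0 then 0 else N r) +
        PowerSeries.mk (fun r => if r = 0 then 0 else N' r) := by
    ext r
    simp only [PowerSeries.coeff_mk, map_add]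
    split_ifs <;> simp
  rw [Derivation.leibniz, hmk, smul_eq_mul, smul_eq_mul, mul_add,
    show PowerSeries.X * (f * PowerSeries.derivative ℂ f') =
      f * (PowerSeries.X * PowerSeries.derivative ℂ f') by ring,
    show PowerSeries.X * (f' * PowerSeries.derivative ℂ f) =
      f' * (PowerSeries.X * PowerSeries.derivative ℂ f) by ring, h, h']
  ring

theorem logDeriv_one : LogDeriv 1 fun _ => 0 := fun n => by
  cases n with
  | zero => simp
  | succ m => simp [PowerSeries.coeff_one]

theorem logDeriv_linear (a : ℂ) :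
    LogDeriv ((1 - Polynomial.C a * Polynomial.X : ℂ[X]) : PowerSeries ℂ) fun r => -a ^ r := by
  intro n
  simp only [Polynomial.coeff_coe, Polynomial.coeff_sub, Polynomial.coeff_one,
    Polynomial.coeff_C_mul, Polynomial.coeff_X]
  cases n with
  | zero => simp
  | succ m =>
    cases m with
    | zero => simp
    | succ l =>
      rw [if_neg (by omega), if_neg (by omega), mul_zero, sub_zero, mul_zero]
      symm
      rw [Finset.sum_eq_add_of_mem (l + 1) (l + 1 + 1) (by simp) (by simp) (by omega)]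
      · simp
        ring
      · intro r hr hne
        rw [Finset.mem_Icc] at hr
        rw [if_neg (by omega), if_neg (by omega)]
        simp

/-- `∏ (1 - α t)`. -/
def linProd (s : Multiset ℂ) : ℂ[X] :=
  (s.map fun a => 1 - Polynomial.C a * Polynomial.X).prod

theorem logDeriv_linProd (s : Multiset ℂ) :
    LogDeriv (linProd s : PowerSeries ℂ) fun r => -(s.map (· ^ r)).sum := by
  induction s using Multiset.induction_on with
  | empty => simpa [linProd] using logDeriv_one
  | cons a s ih =>
    have h := (logDeriv_linear a).mul ih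
    rw [show linProd (a ::ₘ s) = (1 - Polynomial.C a * Polynomial.X) * linProd s by
      simp [linProd], Polynomial.coe_mul]
    convert h using 1
    funext r
    simp
    ring

theorem LogDeriv.unique {f : PowerSeries ℂ} (hf : PowerSeries.constantCoeff f = 1) {N N' : ℕ → ℂ}
    (h : LogDeriv f N) (h' : LogDeriv f N') {r : ℕ} (hr : r ≠ 0) : N r = N' r := by
  induction r using Nat.strong_induction_on with
  | _ r ih =>
    have e := (h r).symm.trans (h' r)
    rw [← Finset.add_sum_erase _ _ (Finset.right_mem_Icc.mpr (Nat.one_le_iff_ne_zero.mpr hr)),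
      ← Finset.add_sum_erase _ _ (Finset.right_mem_Icc.mpr (Nat.one_le_iff_ne_zero.mpr hr)),
      Nat.sub_self, PowerSeries.coeff_zero_eq_constantCoeff_apply, hf, mul_one, mul_one] at e
    rw [Finset.sum_congr rfl fun i hi => ?_] at e
    · exact add_right_cancel e
    · rw [Finset.mem_erase, Finset.mem_Icc] at hi
      rw [ih i (by omega) (by omega)]

theorem LogDeriv.eq {f f' : PowerSeries ℂ} {N N' : ℕ → ℂ} (h : LogDeriv f N) (h' : LogDeriv f' N')
    (hN : ∀ r, r ≠ 0 → N r = N' r)
    (h0 : PowerSeries.constantCoeff f = PowerSeries.constantCoeff f') : f = f' := by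
  ext n
  induction n using Nat.strong_induction_on with
  | _ n ih =>
    rcases eq_or_ne n 0 with rfl | hn
    · simpa using h0
    · refine mul_left_cancel₀ (Nat.cast_ne_zero.mpr hn : (n : ℂ) ≠ 0) ?_
      rw [h n, h' n]
      refine Finset.sum_congr rfl fun r hr => ?_
      rw [Finset.mem_Icc] at hr
      rw [hN r (by omega), ih (n - r) (by omega)]

theorem constantCoeff_linProd (s : Multiset ℂ) :
    PowerSeries.constantCoeff (linProd s : PowerSeries ℂ) = 1 := by
  rw [Polynomial.constantCoeff_coe, Polynomial.coeff_zero_eq_eval_zero, linProd,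
    Polynomial.eval_multiset_prod, Multiset.map_map]
  exact Multiset.prod_eq_one fun x hx => by
    obtain ⟨a, -, rfl⟩ := Multiset.mem_map.mp hx
    simp

theorem eval_one_linProd (s : Multiset ℂ) :
    (linProd s).eval 1 = (s.map fun a => 1 - a).prod := by
  rw [linProd, Polynomial.eval_multiset_prod, Multiset.map_map]
  congr 1
  refine Multiset.map_congr rfl fun a _ => ?_
  simp

theorem natDegree_linProd_le (s : Multiset ℂ) : (linProd s).natDegree ≤ Multiset.card s := by
  refine (Polynomial.natDegree_multiset_prod_le _).trans ?_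
  refine le_of_le_of_eq (Multiset.sum_le_card_nsmul _ 1 fun x hx => ?_) (by simp)
  rw [Multiset.map_map] at hx
  obtain ⟨a, -, rfl⟩ := Multiset.mem_map.mp hx
  exact (Polynomial.natDegree_sub_le _ _).trans
    (max_le (by simp) ((Polynomial.natDegree_C_mul_le _ _).trans Polynomial.natDegree_X_le))

theorem reflect_prod_X_sub_C (s : Multiset ℂ) :
    Polynomial.reflect (Multiset.card s) (s.map fun a => Polynomial.X - Polynomial.C a).prod =
      linProd s := by
  induction s using Multiset.induction_on with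
  | empty => simp [linProd]
  | cons a s ih =>
    rw [Multiset.card_cons, Multiset.map_cons, Multiset.prod_cons, Nat.add_comm,
      Polynomial.reflect_mul _ _ (Polynomial.natDegree_X_sub_C a).le
        (le_of_eq (Polynomial.natDegree_multiset_prod_X_sub_C_eq_card s)), ih]
    simp [linProd, Polynomial.reflect_sub, Polynomial.reflect_C]

/-- Integer sequences with constant term one are products of linear factors with algebraic integer
coefficients. -/
theorem exists_roots (g : ℕ) (c : ℕ → ℤ) (h0 : c 0 = 1) :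
    ∃ s : Multiset ℂ, Multiset.card s = 2 * g ∧ (∀ a ∈ s, IsIntegral ℤ a) ∧
      ∀ n, n ≤ 2 * g → (linProd s).coeff n = (c n : ℂ) := by
  classical
  set P : ℤ[X] := ∑ i ∈ Finset.range (2 * g + 1), Polynomial.monomial (2 * g - i) (c i) with hP
  have hcoeff : ∀ i, i ≤ 2 * g → P.coeff (2 * g - i) = c i := fun i hi => by
    rw [hP, Polynomial.finsetSum_coeff, Finset.sum_eq_single i]
    · rw [Polynomial.coeff_monomial, if_pos rfl]
    · intro j hj hne
      rw [Finset.mem_range] at hj
      rw [Polynomial.coeff_monomial, if_neg (by omega)]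
    · intro h
      exact absurd (Finset.mem_range.mpr (by omega)) h
  have hdeg : P.natDegree ≤ 2 * g :=
    Polynomial.natDegree_sum_le_of_forall_le _ _ fun i _ =>
      (Polynomial.natDegree_monomial_le _).trans (Nat.sub_le _ _)
  have hlead : P.coeff (2 * g) = 1 := by simpa [h0] using hcoeff 0 (Nat.zero_le _)
  have hnd : P.natDegree = 2 * g :=
    le_antisymm hdeg (Polynomial.le_natDegree_of_ne_zero (by rw [hlead]; exact one_ne_zero))
  have hm : P.Monic := by rw [Polynomial.Monic, Polynomial.leadingCoeff, hnd, hlead]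
  set Q := P.map (Int.castRingHom ℂ)
  have hQm : Q.Monic := hm.map _
  have hQd : Q.natDegree = 2 * g := by rw [hm.natDegree_map, hnd]
  have hsplit : Q.Splits := IsAlgClosed.splits Q
  have hcard : Multiset.card Q.roots = 2 * g := by rw [← hQd, hsplit.natDegree_eq_card_roots]
  refine ⟨Q.roots, hcard, fun a ha => ⟨P, hm, ?_⟩, fun n hn => ?_⟩
  · have := (Polynomial.mem_roots hQm.ne_zero).mp ha
    rwa [Polynomial.IsRoot, Polynomial.eval_map] at this
  · rw [← reflect_prod_X_sub_C, hcard, ← hsplit.eq_prod_roots_of_monic hQm,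
      Polynomial.coeff_reflect, Polynomial.revAt_le hn, Polynomial.coeff_map, hcoeff n hn]
    simp

/-- The elementary numerator of a counting sequence. -/
def numer (Q : ℕ) (b : ℕ → ℤ) : PowerSeries ℂ :=
  PowerSeries.mk (fun n => (b n : ℂ)) *
    ((linProd {1, (Q : ℂ)} : ℂ[X]) : PowerSeries ℂ)

theorem coeff_numer (Q : ℕ) (b : ℕ → ℤ) (n : ℕ) :
    PowerSeries.coeff n (numer Q b) = (((b n : ℤ) - (if 1 ≤ n then (1 + (Q : ℤ)) * b (n - 1) else 0) +
      (if 2 ≤ n then (Q : ℤ) * b (n - 2) else 0) : ℤ) : ℂ) := by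
  have hlin : linProd {1, (Q : ℂ)} =
      1 - Polynomial.C (1 + (Q : ℂ)) * Polynomial.X + Polynomial.C (Q : ℂ) * Polynomial.X ^ 2 := by
    simp [linProd]
    ring
  rw [numer, hlin, Polynomial.coe_add, Polynomial.coe_sub, Polynomial.coe_one, Polynomial.coe_mul,
    Polynomial.coe_mul, Polynomial.coe_C, Polynomial.coe_C, Polynomial.coe_X, Polynomial.coe_pow,
    Polynomial.coe_X, mul_add, mul_sub, mul_one, map_add, map_sub, mul_left_comm,
    mul_left_comm _ (PowerSeries.C (Q : ℂ)), PowerSeries.coeff_C_mul, PowerSeries.coeff_C_mul,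
    PowerSeries.coeff_mul_X_pow']
  nth_rewrite 1 [← pow_one (PowerSeries.X : PowerSeries ℂ)]
  rw [PowerSeries.coeff_mul_X_pow', PowerSeries.coeff_mk]
  split_ifs <;> simp

/-- Counting sequences of Riemann–Roch shape. -/
structure IsCounting (g h Q : ℕ) (b : ℕ → ℤ) (N : ℕ → ℂ) : Prop where
  one_lt : 1 < Q
  zero : b 0 = 1
  logDeriv : LogDeriv (PowerSeries.mk fun n => (b n : ℂ)) N
  large : ∀ n, 2 * g ≤ n + 1 → b n * ((Q : ℤ) - 1) = (h : ℤ) * ((Q : ℤ) ^ (n + 1 - g) - 1)

theorem IsCounting.logDeriv_numer {g h Q : ℕ} {b : ℕ → ℤ} {N : ℕ → ℂ}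
    (H : IsCounting g h Q b N) :
    LogDeriv (numer Q b) fun r => N r - (1 + (Q : ℂ) ^ r) := by
  have := H.logDeriv.mul (logDeriv_linProd {1, (Q : ℂ)})
  have heq : (fun r => N r + -((({1, (Q : ℂ)} : Multiset ℂ)).map (· ^ r)).sum) =
      fun r => N r - (1 + (Q : ℂ) ^ r) := by
    funext r
    simp
    ring
  rw [← heq]
  exact this

theorem IsCounting.constantCoeff_numer {g h Q : ℕ} {b : ℕ → ℤ} {N : ℕ → ℂ}
    (H : IsCounting g h Q b N) : PowerSeries.constantCoeff (numer Q b) = 1 := by
  rw [← PowerSeries.coeff_zero_eq_constantCoeff_apply, coeff_numer]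
  simp [H.zero]

theorem IsCounting.coeff_numer_eq_zero {g h Q : ℕ} {b : ℕ → ℤ} {N : ℕ → ℂ}
    (H : IsCounting g h Q b N) {n : ℕ} (hn : 2 * g < n) : PowerSeries.coeff n (numer Q b) = 0 := by
  rw [coeff_numer, Int.cast_eq_zero]
  have hQ : (Q : ℤ) - 1 ≠ 0 := by have := H.one_lt; omega
  refine (mul_left_inj' hQ).mp ?_
  rw [zero_mul, add_mul, sub_mul, if_pos (by omega)]
  have e0 := H.large n (by omega)
  have e1 := H.large (n - 1) (by omega)
  split_ifs with h2
  · have e2 := H.large (n - 2) (by omega)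
    rw [e0, mul_assoc, e1, mul_assoc, e2, show n + 1 - g = (n - 2 + 1 - g) + 2 by omega,
      show n - 1 + 1 - g = (n - 2 + 1 - g) + 1 by omega, pow_add, pow_add]
    ring
  · have hn1 : n = 1 := by omega
    subst hn1
    have hg : g = 0 := by omega
    subst hg
    have h1 : (h : ℤ) = 1 := by
      refine mul_right_cancel₀ hQ ?_
      simpa [H.zero] using e1.symm
    simp only [Nat.sub_self, Nat.sub_zero, H.zero, mul_one] at e0 ⊢
    linear_combination e0 + ((Q : ℤ) ^ (1 + 1) - 1) * h1

/-- **Class number formula.** -/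
theorem IsCounting.exists_roots {g h Q : ℕ} {b : ℕ → ℤ} {N : ℕ → ℂ} (H : IsCounting g h Q b N) :
    ∃ s : Multiset ℂ, Multiset.card s = 2 * g ∧ (∀ a ∈ s, IsIntegral ℤ a) ∧
      (∀ r, r ≠ 0 → N r = (Q : ℂ) ^ r + 1 - (s.map (· ^ r)).sum) ∧
      (h : ℂ) = (s.map fun a => 1 - a).prod := by
  obtain ⟨s, hs, hint, hc⟩ := ClassNumber.exists_roots g
    (fun n => b n - (if 1 ≤ n then (1 + (Q : ℤ)) * b (n - 1) else 0) +
      (if 2 ≤ n then (Q : ℤ) * b (n - 2) else 0)) (by simp [H.zero])
  have heq : (linProd s : PowerSeries ℂ) = numer Q b := by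
    ext n
    rw [Polynomial.coeff_coe]
    rcases le_or_gt n (2 * g) with hn | hn
    · rw [hc n hn, coeff_numer]
    · rw [H.coeff_numer_eq_zero hn,
        Polynomial.coeff_eq_zero_of_natDegree_lt ((natDegree_linProd_le s).trans_lt (hs ▸ hn))]
  refine ⟨s, hs, hint, fun r hr => ?_, ?_⟩
  · have := LogDeriv.unique H.constantCoeff_numer H.logDeriv_numer (heq ▸ logDeriv_linProd s) hr
    linear_combination this
  · -- evaluate at one
    have hsum : ∀ T, ∑ n ∈ Finset.range (T + 2), ((b n : ℤ) -
        (if 1 ≤ n then (1 + (Q : ℤ)) * b (n - 1) else 0) +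
        (if 2 ≤ n then (Q : ℤ) * b (n - 2) else 0)) = b (T + 1) - (Q : ℤ) * b T := by
      intro T
      induction T with
      | zero => simp [Finset.sum_range_succ]; ring
      | succ T ih =>
        rw [Finset.sum_range_succ, ih, if_pos (by omega), if_pos (by omega),
          show T + 2 - 1 = T + 1 by omega, show T + 2 - 2 = T by omega,
          show T + 1 + 1 = T + 2 from rfl]
        ring
    have hQ : (Q : ℤ) - 1 ≠ 0 := by have := H.one_lt; omega
    have hh : b (2 * g + 1) - (Q : ℤ) * b (2 * g) = h := by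
      refine (mul_left_inj' hQ).mp ?_
      rw [sub_mul, mul_assoc, H.large _ (by omega), H.large _ (by omega),
        show 2 * g + 1 + 1 - g = (2 * g + 1 - g) + 1 by omega, pow_succ]
      ring
    rw [← eval_one_linProd, Polynomial.eval_eq_sum_range'
      ((natDegree_linProd_le s).trans_lt (show Multiset.card s < 2 * g + 2 by omega)),
      show ((h : ℕ) : ℂ) = ((h : ℤ) : ℂ) by simp, ← hh, ← hsum (2 * g), Int.cast_sum]
    refine Finset.sum_congr rfl fun n _ => ?_
    rw [one_pow, mul_one, ← coeff_numer, ← heq, Polynomial.coeff_coe]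

theorem pow_sum_map (s : Multiset ℂ) (m r : ℕ) :
    ((s.map (· ^ m)).map (· ^ r)).sum = (s.map (· ^ (m * r))).sum := by
  rw [Multiset.map_map]
  congr 1
  exact Multiset.map_congr rfl fun a _ => (pow_mul a m r).symm

/-- The class number over the extension of degree `m`. -/
theorem IsCounting.classNumber {g h hm Q m : ℕ} {b bm : ℕ → ℤ} {N Nm : ℕ → ℂ} {s : Multiset ℂ}
    (_H : IsCounting g h Q b N)
    (hs : ∀ r, r ≠ 0 → N r = (Q : ℂ) ^ r + 1 - (s.map (· ^ r)).sum)
    (hm0 : m ≠ 0) (Hm : IsCounting g hm (Q ^ m) bm Nm)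
    (hN : ∀ r, r ≠ 0 → Nm r = N (m * r)) :
    (hm : ℂ) = (s.map fun a => 1 - a ^ m).prod := by
  obtain ⟨s', hs', -, hN', hh'⟩ := Hm.exists_roots
  have heq : (linProd s' : PowerSeries ℂ) = (linProd (s.map (· ^ m)) : PowerSeries ℂ) := by
    refine (logDeriv_linProd s').eq (logDeriv_linProd _) (fun r hr => ?_)
      (by rw [constantCoeff_linProd, constantCoeff_linProd])
    rw [pow_sum_map]
    have e1 := hN' r hr
    rw [hN r hr, hs _ (Nat.mul_ne_zero hm0 hr)] at e1
    push_cast at e1
    rw [← pow_mul] at e1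
    linear_combination -e1
  rw [hh', ← eval_one_linProd, Polynomial.coe_injective ℂ heq, eval_one_linProd, Multiset.map_map]
  rfl

/-- A polynomial series has minus the power sums of its inverse roots as logarithmic derivative. -/
theorem exists_powerSums_of_finite {f : PowerSeries ℂ} {N : ℕ → ℂ} (h : LogDeriv f N)
    (h0 : PowerSeries.constantCoeff f = 1) {B : ℕ}
    (hf : ∀ n, B < n → PowerSeries.coeff n f = 0) :
    ∃ s : Multiset ℂ, ∀ r, r ≠ 0 → N r = -(s.map (· ^ r)).sum := by
  classical
  set P : ℂ[X] := ∑ i ∈ Finset.range (B + 1),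
    Polynomial.monomial (B - i) (PowerSeries.coeff i f) with hP
  have hcoeff : ∀ i, i ≤ B → P.coeff (B - i) = PowerSeries.coeff i f := fun i hi => by
    rw [hP, Polynomial.finsetSum_coeff, Finset.sum_eq_single i]
    · rw [Polynomial.coeff_monomial, if_pos rfl]
    · intro j hj hne
      rw [Finset.mem_range] at hj
      rw [Polynomial.coeff_monomial, if_neg (by omega)]
    · intro h'
      exact absurd (Finset.mem_range.mpr (by omega)) h'
  have hdeg : P.natDegree ≤ B :=
    Polynomial.natDegree_sum_le_of_forall_le _ _ fun i _ =>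
      (Polynomial.natDegree_monomial_le _).trans (Nat.sub_le _ _)
  have hlead : P.coeff B = 1 := by simpa [h0] using hcoeff 0 (Nat.zero_le _)
  have hnd : P.natDegree = B :=
    le_antisymm hdeg (Polynomial.le_natDegree_of_ne_zero (by rw [hlead]; exact one_ne_zero))
  have hm : P.Monic := by rw [Polynomial.Monic, Polynomial.leadingCoeff, hnd, hlead]
  have hsplit : P.Splits := IsAlgClosed.splits P
  have hcard : Multiset.card P.roots = B := by rw [← hnd, hsplit.natDegree_eq_card_roots]
  have heq : (linProd P.roots : PowerSeries ℂ) = f := by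
    ext n
    rw [Polynomial.coeff_coe]
    rcases le_or_gt n B with hn | hn
    · rw [← reflect_prod_X_sub_C, hcard, ← hsplit.eq_prod_roots_of_monic hm,
        Polynomial.coeff_reflect, Polynomial.revAt_le hn, hcoeff n hn]
    · rw [hf n hn,
        Polynomial.coeff_eq_zero_of_natDegree_lt ((natDegree_linProd_le _).trans_lt (hcard ▸ hn))]
  exact ⟨P.roots, fun r hr =>
    LogDeriv.unique h0 h (heq ▸ logDeriv_linProd P.roots) hr⟩

/-- Finite sets of power sums determine the number of ones. -/
theorem false_of_powerSums {s t : Multiset ℂ} {c : ℂ} (hc : c ≠ 1)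
    (hs : ∀ a ∈ s, a ≠ 1)
    (h : ∀ r, r ≠ 0 → c ^ r + 1 - (s.map (· ^ r)).sum = -(t.map (· ^ r)).sum) : False := by
  classical
  set u : Multiset ℂ := c ::ₘ 1 ::ₘ t with hu
  have hsum : ∀ r, r ≠ 0 → (u.map (· ^ r)).sum = (s.map (· ^ r)).sum := fun r hr => by
    have := h r hr
    simp [hu]
    linear_combination this
  set Z : Finset ℂ := ((s + u).toFinset).erase 1 with hZ
  set P : ℂ[X] := Polynomial.X * ∏ z ∈ Z, (Polynomial.X - Polynomial.C z) with hP
  have hev : ∀ v : Multiset ℂ, (v.map fun a => P.eval a).sum =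
      ∑ j ∈ Finset.range (P.natDegree + 1), P.coeff j * (v.map (· ^ j)).sum := fun v => by
    induction v using Multiset.induction_on with
    | empty => simp
    | cons a v ih =>
      rw [Multiset.map_cons, Multiset.sum_cons, ih, Polynomial.eval_eq_sum_range,
        ← Finset.sum_add_distrib]
      refine Finset.sum_congr rfl fun j _ => ?_
      rw [Multiset.map_cons, Multiset.sum_cons]
      ring
  have hP0 : P.coeff 0 = 0 := by simp [hP]
  have heq : (u.map fun a => P.eval a).sum = (s.map fun a => P.eval a).sum := by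
    rw [hev, hev]
    refine Finset.sum_congr rfl fun j _ => ?_
    rcases eq_or_ne j 0 with rfl | hj
    · rw [hP0, zero_mul, zero_mul]
    · rw [hsum j hj]
  have hzero : ∀ a ∈ s + u, a ≠ 1 → P.eval a = 0 := fun a ha ha1 => by
    have : a ∈ Z := Finset.mem_erase.mpr ⟨ha1, Multiset.mem_toFinset.mpr ha⟩
    simp only [hP, Polynomial.eval_mul, Polynomial.eval_prod, Polynomial.eval_sub,
      Polynomial.eval_X, Polynomial.eval_C]
    rw [Finset.prod_eq_zero this (sub_self a), mul_zero]
  have h1 : P.eval 1 ≠ 0 := by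
    simp only [hP, Polynomial.eval_mul, Polynomial.eval_prod, Polynomial.eval_sub,
      Polynomial.eval_X, Polynomial.eval_C, one_mul]
    exact Finset.prod_ne_zero_iff.mpr fun z hz =>
      sub_ne_zero.mpr (Finset.ne_of_mem_erase hz).symm
  have hcount : ∀ v : Multiset ℂ, (∀ a ∈ v, a ∈ s + u) →
      (v.map fun a => P.eval a).sum = (v.count 1 : ℂ) * P.eval 1 := by
    intro v hv
    induction v using Multiset.induction_on with
    | empty => simp
    | cons a v ih =>
      rw [Multiset.map_cons, Multiset.sum_cons, ih fun b hb => hv b (Multiset.mem_cons_of_mem hb),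
        Multiset.count_cons]
      rcases eq_or_ne a 1 with rfl | ha
      · simp; ring
      · rw [hzero a (hv a (Multiset.mem_cons_self _ _)) ha, if_neg (Ne.symm ha)]
        simp
  rw [hcount u fun a ha => Multiset.mem_add.mpr (Or.inr ha),
    hcount s fun a ha => Multiset.mem_add.mpr (Or.inl ha),
    Multiset.count_eq_zero.mpr fun h1 => hs 1 h1 rfl] at heq
  simp only [hu, Multiset.count_cons_self, Multiset.count_cons, if_neg (Ne.symm hc),
    Nat.cast_zero, zero_mul, mul_eq_zero, or_iff_left h1] at heq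
  simp at heq
  exact Nat.cast_add_one_ne_zero _ heq

/-- Some power of any element of a finite monoid is idempotent. -/
theorem exists_idempotent_pow {S : Type*} [Monoid S] [Finite S] (x : S) :
    ∃ m, 0 < m ∧ ∀ M, m ∣ M → 0 < M → x ^ M * x ^ M = x ^ M := by
  obtain ⟨i, j, hij, he⟩ := Finite.exists_ne_map_eq_of_infinite fun n : ℕ => x ^ n
  wlog hlt : i < j generalizing i j
  · exact this j i hij.symm he.symm (by omega)
  set d := j - i with hd
  have hper : ∀ a, i ≤ a → ∀ l, x ^ (a + l * d) = x ^ a := by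
    intro a ha l
    induction l with
    | zero => simp
    | succ l ih =>
      rw [show a + (l + 1) * d = j + (a - i + l * d) by
        rw [Nat.succ_mul, hd]; omega, pow_add, ← show x ^ i = x ^ j from he, ← pow_add,
        show i + (a - i + l * d) = a + l * d by omega, ih]
  refine ⟨d * (i + 1), Nat.mul_pos (by omega) (by omega), fun M hM hM0 => ?_⟩
  obtain ⟨t, rfl⟩ := hM
  have ht : 0 < t := Nat.pos_of_ne_zero fun h => by simp [h] at hM0
  rw [← pow_add]
  have hi : i ≤ d * (i + 1) * t := by
    calc i ≤ i + 1 := Nat.le_succ i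
      _ = 1 * (i + 1) * 1 := by ring
      _ ≤ d * (i + 1) * t := Nat.mul_le_mul (Nat.mul_le_mul_right _ (by omega)) ht
  rw [show d * (i + 1) * t + d * (i + 1) * t = d * (i + 1) * t + ((i + 1) * t) * d by ring]
  exact hper _ hi _

/-- For many `M`, `∏ (1 + α ^ M + ⋯ + α ^ (M (ℓ - 1)))` is not divisible by `ℓ ^ (2 g + 1)`. -/
theorem exists_not_dvd (s : Multiset ℂ) (hs : ∀ a ∈ s, IsIntegral ℤ a) {ℓ : ℕ} (hℓ : 1 < ℓ) :
    ∃ M0, 0 < M0 ∧ ∀ M, M0 ∣ M → 0 < M → ∀ X : ℕ,
      (X : ℂ) = (s.map fun a => ∑ j ∈ Finset.range ℓ, (a ^ M) ^ j).prod →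
        ¬ ℓ ^ (Multiset.card s + 1) ∣ X := by
  classical
  set R := Algebra.adjoin ℤ {a | a ∈ s} with hR
  have hfin : {a : ℂ | a ∈ s}.Finite :=
    (s.toFinset.finite_toSet).subset fun a ha => by simpa using ha
  have : Module.Finite ℤ R :=
    Module.Finite.iff_fg.mpr (fg_adjoin_of_finite hfin hs)
  set n := ℓ ^ (Multiset.card s + 1) with hn
  have hn0 : 0 < n := pow_pos (by omega) _
  set I : Ideal R := Ideal.span {(n : R)} with hI
  have : Finite (R ⧸ I) := by
    have : Module.Finite ℤ (R ⧸ I) :=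
      Module.Finite.of_surjective (Ideal.Quotient.mkₐ ℤ I).toLinearMap Ideal.Quotient.mk_surjective
    refine Module.finite_of_fg_torsion _ fun x => ?_
    obtain ⟨y, rfl⟩ := Ideal.Quotient.mk_surjective x
    refine ⟨⟨(n : ℤ), mem_nonZeroDivisors_of_ne_zero (by exact_mod_cast hn0.ne')⟩, ?_⟩
    rw [Submonoid.mk_smul, zsmul_eq_mul, ← map_intCast (Ideal.Quotient.mk I), ← map_mul,
      Ideal.Quotient.eq_zero_iff_mem, hI]
    simpa using Ideal.mul_mem_right y _ (Ideal.mem_span_singleton_self ((n : R)))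
  choose m hm0 hm using fun a : {a // a ∈ s.toFinset} =>
    exists_idempotent_pow (Ideal.Quotient.mk I
      (⟨(a : ℂ), Algebra.subset_adjoin (Multiset.mem_toFinset.mp a.2)⟩ : R))
  refine ⟨∏ a, m a, Finset.prod_pos fun a _ => hm0 a, fun M hM hM0 X hX hdvd => ?_⟩
  -- lift everything to `R`
  have key : ∀ t : Multiset ℂ, (∀ a ∈ t, a ∈ s) → ∃ p u : R,
      (p : ℂ) = (t.map fun a => ∑ j ∈ Finset.range ℓ, (a ^ M) ^ j).prod ∧
      Ideal.Quotient.mk I (p * u) = (ℓ : R ⧸ I) ^ Multiset.card t := by
    intro t ht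
    induction t using Multiset.induction_on with
    | empty => exact ⟨1, 1, by simp, by simp⟩
    | cons a t ih =>
      obtain ⟨p, u, hp, hpu⟩ := ih fun b hb => ht b (Multiset.mem_cons_of_mem hb)
      have ha := ht a (Multiset.mem_cons_self a t)
      set α : R := ⟨a, Algebra.subset_adjoin ha⟩ with hα
      have he : Ideal.Quotient.mk I (α ^ M) * Ideal.Quotient.mk I (α ^ M) =
          Ideal.Quotient.mk I (α ^ M) := by
        rw [map_pow]
        exact hm ⟨a, Multiset.mem_toFinset.mpr ha⟩ M
          ((Finset.dvd_prod_of_mem m (Finset.mem_univ _)).trans hM) hM0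
      refine ⟨(∑ j ∈ Finset.range ℓ, (α ^ M) ^ j) * p, ((ℓ : R) - ((ℓ : R) - 1) * α ^ M) * u,
        ?_, ?_⟩
      · rw [Subalgebra.coe_mul, hp, Multiset.map_cons, Multiset.prod_cons,
          AddSubmonoidClass.coe_finsetSum]
        rfl
      · rw [show (∑ j ∈ Finset.range ℓ, (α ^ M) ^ j) * p * (((ℓ : R) - ((ℓ : R) - 1) * α ^ M) * u) =
          ((∑ j ∈ Finset.range ℓ, (α ^ M) ^ j) * ((ℓ : R) - ((ℓ : R) - 1) * α ^ M)) * (p * u) by
            ring, map_mul, hpu, Multiset.card_cons, pow_succ']
        congr 1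
        set e := Ideal.Quotient.mk I (α ^ M)
        have hpow : ∀ j, 1 ≤ j → e ^ j = e := fun j hj => by
          induction j with
          | zero => omega
          | succ j ihj =>
            rcases Nat.eq_zero_or_pos j with rfl | hjp
            · rw [pow_one]
            · rw [pow_succ, ihj hjp, he]
        rw [map_mul, map_sum, map_sub, map_mul, map_sub, map_natCast, map_one]
        simp only [map_pow _ (α ^ M)]
        obtain ⟨ℓ', rfl⟩ : ∃ ℓ', ℓ = ℓ' + 1 := ⟨ℓ - 1, by omega⟩
        rw [Finset.sum_range_succ', pow_zero, Finset.sum_congr rfl fun j _ => hpow (j + 1) (by omega),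
          Finset.sum_const, Finset.card_range, nsmul_eq_mul]
        push_cast
        linear_combination -((ℓ' : R ⧸ I) * (ℓ' : R ⧸ I)) * he
  obtain ⟨p, u, hp, hpu⟩ := key s fun a ha => ha
  obtain ⟨X', rfl⟩ := hdvd
  have hpn : Ideal.Quotient.mk I p = 0 := by
    have : p = ((n : R) * (X' : R)) := Subtype.ext (by rw [hp, ← hX]; simp [hn])
    rw [this, Ideal.Quotient.eq_zero_iff_mem, hI]
    exact Ideal.mul_mem_right _ _ (Ideal.mem_span_singleton_self _)
  rw [map_mul, hpn, zero_mul, ← map_natCast (Ideal.Quotient.mk I), ← map_pow, eq_comm,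
    Ideal.Quotient.eq_zero_iff_mem, hI, Ideal.mem_span_singleton] at hpu
  obtain ⟨y, hy⟩ := hpu
  -- `ℓ` would be a unit among the algebraic integers
  have hy' : ((ℓ : ℕ) : ℂ) ^ Multiset.card s = ((n : ℕ) : ℂ) * (y : ℂ) := by
    have := congrArg (fun z : R => (z : ℂ)) hy
    simpa using this
  have hℓc : ((ℓ : ℕ) : ℂ) ≠ 0 := Nat.cast_ne_zero.mpr (by omega)
  have hinv : (y : ℂ) = algebraMap ℚ ℂ (1 / (ℓ : ℚ)) := by
    rw [hn, Nat.cast_pow, pow_succ, mul_assoc] at hy'
    have h1 : ((ℓ : ℕ) : ℂ) * (y : ℂ) = 1 :=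
      mul_left_cancel₀ (pow_ne_zero (Multiset.card s) hℓc) (by rw [← hy', mul_one])
    rw [map_div₀, map_one, map_natCast, eq_div_iff hℓc, mul_comm, h1]
  have hyint : IsIntegral ℤ (y : ℂ) :=
    (Algebra.IsIntegral.isIntegral (R := ℤ) y).map R.val
  rw [hinv, isIntegral_algebraMap_iff (algebraMap ℚ ℂ).injective] at hyint
  obtain ⟨z, hz⟩ := IsIntegrallyClosed.isIntegral_iff.mp hyint
  have hz1 : (z : ℤ) * ℓ = 1 := by
    have hℓq : ((ℓ : ℕ) : ℚ) ≠ 0 := Nat.cast_ne_zero.mpr (by omega)
    have : (z : ℚ) * ℓ = 1 := by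
      rw [show (z : ℚ) = 1 / (ℓ : ℚ) from hz, div_mul_cancel₀ _ hℓq]
    exact_mod_cast this
  rcases Int.eq_one_or_neg_one_of_mul_eq_one' hz1 with h | h <;> omega

end Fermat.Agent.TwoAdic.ClassNumber
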