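import Fermat.Agent.TwoAdic.ClassNumber.Classes
import Fermat.Agent.TwoAdic.ClassNumber.PowerSums
import Mathlib.Algebra.Group.AddChar

/-!
# Counting effective fixed divisors by class

The series `∑ b_n(χ) t ^ n` of fixed effective divisors weighted by a character of the fixed class
group has logarithmic derivative `∑ N_r(χ) t ^ r`; for the trivial character it is of class number
shape, for the others it is a polynomial.

Team LT2, owner helper45.
-/

set_option autoImplicit false
set_option linter.unusedSectionVars false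

noncomputable section

open AlgebraicCurve Fermat.Agent.Curve

namespace Fermat.Agent.TwoAdic.ClassNumber

variable {k F : Type*} [Field k] [IsAlgClosed k] [Field F] [Algebra k F] [IsFunctionField1 k F]
variable {p : ℕ} [Fact p.Prime] [CharP k p] {f : ℕ}
variable {g : SemilinearAut k F} {P0 : Place k F}

/-- The class of a fixed divisor. -/
theorem cl_mem_fixedPic (hP0 : g • P0 = P0) {E : Divisor k F} (hE : g • E = E) :
    cl P0 E ∈ fixedPic g := by
  rw [mem_fixedPic, ← cl_smul hP0, hE]

/-- A character evaluated at the class of a divisor. -/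
def chiCl (P0 : Place k F) (χ : AddChar (fixedPic g) ℂ) (E : Divisor k F) : ℂ :=
  letI := Classical.propDecidable
  if h : cl P0 E ∈ fixedPic g then χ ⟨cl P0 E, h⟩ else 0

theorem chiCl_of_fixed (hP0 : g • P0 = P0) (χ : AddChar (fixedPic g) ℂ) {E : Divisor k F}
    (hE : g • E = E) : chiCl P0 χ E = χ ⟨cl P0 E, cl_mem_fixedPic hP0 hE⟩ :=
  dif_pos (cl_mem_fixedPic hP0 hE)

theorem chiCl_add (hP0 : g • P0 = P0) (χ : AddChar (fixedPic g) ℂ) {E E' : Divisor k F}
    (hE : g • E = E) (hE' : g • E' = E') :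
    chiCl P0 χ (E + E') = chiCl P0 χ E * chiCl P0 χ E' := by
  rw [chiCl_of_fixed hP0 χ hE, chiCl_of_fixed hP0 χ hE',
    chiCl_of_fixed hP0 χ (by rw [smul_add, hE, hE']), ← AddChar.map_add_eq_mul]
  exact congrArg χ (Subtype.ext (map_add (cl P0) E E'))

/-- `b_n(χ)`. -/
def bCount (P0 : Place k F) (χ : AddChar (fixedPic g) ℂ) (n : ℕ) : ℂ :=
  ∑ᶠ E : EffFixed g n, chiCl P0 χ E.1

/-- `N_r(χ)`. -/
def nPlaces (P0 : Place k F) (χ : AddChar (fixedPic g) ℂ) (r : ℕ) : ℂ :=
  ∑ᶠ v ∈ {v : Place k F | g ^ r • v = v}, chiCl P0 χ (orb g v r)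

/-- The number of places fixed by `g ^ r`. -/
def placeCount (g : SemilinearAut k F) (r : ℕ) : ℕ := Nat.card {v : Place k F // g ^ r • v = v}

theorem placeCount_pow (m r : ℕ) : placeCount (g ^ m) r = placeCount g (m * r) := by
  unfold placeCount
  rw [← pow_mul]

theorem bCount_zero (hg : IsFrob g p f) (hP0 : g • P0 = P0) (χ : AddChar (fixedPic g) ℂ) :
    bCount P0 χ 0 = 1 := by
  let E0 : EffFixed g 0 := ⟨0, le_rfl, smul_zero g, by simp⟩
  rw [bCount, finsum_eq_single _ E0 fun E hE => absurd (Subtype.ext (Finsupp.ext fun v => ?_)) hE,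
    chiCl_of_fixed hP0 χ E0.2.2.1]
  · rw [show (⟨cl P0 E0.1, cl_mem_fixedPic hP0 E0.2.2.1⟩ : fixedPic g) = 0 from
      Subtype.ext (map_zero _)]
    exact χ.map_zero_eq_one
  · have h1 : 0 ≤ E.1 v := E.2.1 v
    have h2 := E.apply_le hg v
    show E.1 v = 0
    omega

/-- Each fixed effective divisor of degree `n` is met `n` times by orbit sums. -/
theorem sum_card_orb_le (hg : IsFrob g p f) {n : ℕ} (E : EffFixed g n)
    (S : ℕ → Finset (Place k F)) (hS : ∀ r, 0 < r → ∀ v, v ∈ S r ↔ g ^ r • v = v)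
    [∀ r v, Decidable (orb g v r ≤ E.1)] :
    ∑ r ∈ Finset.Icc 1 n, ((S r).filter fun v => orb g v r ≤ E.1).card = n := by
  classical
  have hsupp : ∀ r, 0 < r → ∀ v, g ^ r • v = v → orb g v r ≤ E.1 → v ∈ E.1.support := by
    intro r hr v hv hle
    rw [Finsupp.mem_support_iff]
    have h := hle v
    have h1 : (1 : ℤ) ≤ orb g v r v := by
      simp only [orb, Finsupp.finsetSum_apply]
      refine le_trans ?_ (Finset.single_le_sum (f := fun i => Finsupp.single (g ^ i • v) (1 : ℤ) v)
        (fun i _ => Finsupp.single_nonneg.mpr zero_le_one v) (Finset.mem_range.mpr hr))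
      simp
    omega
  calc ∑ r ∈ Finset.Icc 1 n, ((S r).filter fun v => orb g v r ≤ E.1).card
      = ∑ r ∈ Finset.Icc 1 n,
          (E.1.support.filter fun v => g ^ r • v = v ∧ orb g v r ≤ E.1).card := by
        refine Finset.sum_congr rfl fun r hr => congrArg Finset.card (Finset.ext fun v => ?_)
        have hr1 : 0 < r := (Finset.mem_Icc.mp hr).1
        simp only [Finset.mem_filter, hS r hr1]
        exact ⟨fun h => ⟨hsupp r hr1 v h.1 h.2, h⟩, fun h => h.2⟩
    _ = ∑ v ∈ E.1.support,
          ((Finset.Icc 1 n).filter fun r => g ^ r • v = v ∧ orb g v r ≤ E.1).card := by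
        simp only [Finset.card_filter]
        exact Finset.sum_comm
    _ = ∑ v ∈ E.1.support, (E.1 v).toNat := by
        refine Finset.sum_congr rfl fun v _ => ?_
        set m := MulAction.period g v
        have hm : 0 < m := period_pos hg v
        have hfix : g ^ m • v = v := MulAction.pow_period_smul g v
        have h0 : 0 ≤ E.1 v := E.2.1 v
        have : (Finset.Icc 1 n).filter (fun r => g ^ r • v = v ∧ orb g v r ≤ E.1) =
            (Finset.Icc 1 (E.1 v).toNat).image (m * ·) := by
          ext r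
          simp only [Finset.mem_filter, Finset.mem_Icc, Finset.mem_image]
          constructor
          · rintro ⟨⟨hr1, -⟩, hrv, hle⟩
            obtain ⟨j, rfl⟩ := MulAction.pow_smul_eq_iff_period_dvd.mp hrv
            rw [orb_mul hfix, nsmul_orb_period_le_iff hg E.2.1 E.2.2.1] at hle
            have : 0 < j := Nat.pos_of_ne_zero fun h => by subst h; simp at hr1
            exact ⟨j, ⟨this, by omega⟩, rfl⟩
          · rintro ⟨j, ⟨hj1, hj⟩, rfl⟩
            refine ⟨⟨Nat.mul_pos hm hj1, E.mul_period_le hg v (by omega)⟩,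
              pow_smul_eq_of_dvd hfix (dvd_mul_right m j), ?_⟩
            rw [orb_mul hfix, nsmul_orb_period_le_iff hg E.2.1 E.2.2.1]
            omega
        rw [this, Finset.card_image_of_injective _ (mul_right_injective₀ hm.ne'), Nat.card_Icc]
        omega
    _ = n := by
        have hd := degree_eq_sum E.1
        rw [E.2.2.2] at hd
        have h2 : ∑ v ∈ E.1.support, E.1 v * (v.deg : ℤ) =
            ((∑ v ∈ E.1.support, (E.1 v).toNat : ℕ) : ℤ) := by
          rw [Nat.cast_sum]
          refine Finset.sum_congr rfl fun v _ => ?_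
          rw [deg_eq_one v, Nat.cast_one, mul_one, Int.toNat_of_nonneg (E.2.1 v)]
        rw [h2] at hd
        exact_mod_cast hd.symm

/-- `n b_n = ∑ N_r b_{n - r}`. -/
theorem logDeriv_bCount (hg : IsFrob g p f) (hP0 : g • P0 = P0) (χ : AddChar (fixedPic g) ℂ) :
    LogDeriv (PowerSeries.mk (bCount P0 χ)) (nPlaces P0 χ) := by
  classical
  intro n
  have : ∀ m, Fintype (EffFixed g m) := fun m =>
    have := EffFixed.finite hg m
    Fintype.ofFinite _
  let S : ℕ → Finset (Place k F) := fun r =>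
    if h : 0 < r then ((hg.pow h).finite_fixed_place).toFinset else ∅
  have hS : ∀ r, 0 < r → ∀ v, v ∈ S r ↔ g ^ r • v = v := fun r hr v => by simp [S, hr]
  simp only [PowerSeries.coeff_mk, bCount, finsum_eq_sum_of_fintype]
  have hinner : ∀ r ∈ Finset.Icc 1 n, ∀ v ∈ S r,
      chiCl P0 χ (orb g v r) * ∑ E' : EffFixed g (n - r), chiCl P0 χ E'.1 =
        ∑ E ∈ (Finset.univ.filter fun E : EffFixed g n => orb g v r ≤ E.1), chiCl P0 χ E.1 := by
    intro r hr v hv
    have hr1 := Finset.mem_Icc.mp hr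
    rw [hS r hr1.1] at hv
    rw [Finset.mul_sum]
    refine Finset.sum_nbij'
      (i := fun E' => (⟨orb g v r + E'.1, add_nonneg (orb_nonneg v r) E'.2.1,
        by rw [smul_add, smul_orb hv, E'.2.2.1],
        by rw [map_add, degree_orb, E'.2.2.2]; omega⟩ : EffFixed g n))
      (j := fun E => if h : orb g v r ≤ E.1 then
        (⟨E.1 - orb g v r, sub_nonneg.mpr h, by rw [smul_sub, smul_orb hv, E.2.2.1],
          by rw [map_sub, degree_orb, E.2.2.2]; omega⟩ : EffFixed g (n - r))
        else ⟨Finsupp.single P0 ((n - r : ℕ) : ℤ), Finsupp.single_nonneg.mpr (Int.natCast_nonneg _),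
          by rw [SemilinearAut.smul_single, hP0],
          degree_single_one _ _⟩)
      ?_ ?_ ?_ ?_ ?_
    · intro E' _
      simp only [Finset.mem_filter, Finset.mem_univ, true_and]
      exact le_add_of_nonneg_right E'.2.1
    · intro E _
      simp
    · intro E' _
      rw [dif_pos (le_add_of_nonneg_right E'.2.1)]
      exact Subtype.ext (add_sub_cancel_left _ _)
    · intro E hE
      simp only [Finset.mem_filter, Finset.mem_univ, true_and] at hE
      rw [dif_pos hE]
      exact Subtype.ext (add_sub_cancel _ _)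
    · intro E' _
      exact (chiCl_add hP0 χ (smul_orb hv) E'.2.2.1).symm
  calc (n : ℂ) * ∑ E : EffFixed g n, chiCl P0 χ E.1
      = ∑ E : EffFixed g n, ∑ r ∈ Finset.Icc 1 n,
          ∑ v ∈ S r, if orb g v r ≤ E.1 then chiCl P0 χ E.1 else 0 := by
        rw [Finset.mul_sum]
        refine Finset.sum_congr rfl fun E _ => ?_
        simp only [← Finset.sum_filter, Finset.sum_const, nsmul_eq_mul, ← Finset.sum_mul,
          ← Nat.cast_sum]
        rw [sum_card_orb_le hg E S hS]
    _ = ∑ r ∈ Finset.Icc 1 n, ∑ v ∈ S r,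
          ∑ E : EffFixed g n, if orb g v r ≤ E.1 then chiCl P0 χ E.1 else 0 := by
        rw [Finset.sum_comm]
        exact Finset.sum_congr rfl fun r _ => Finset.sum_comm
    _ = _ := by
        refine Finset.sum_congr rfl fun r hr => ?_
        have hr1 : 0 < r := (Finset.mem_Icc.mp hr).1
        rw [nPlaces, finsum_mem_eq_sum_of_subset (s := {v : Place k F | g ^ r • v = v})
          (t := S r) _ (fun v hv => Finset.mem_coe.mpr ((hS r hr1 v).mpr hv.1))
          (fun v hv => (hS r hr1 v).mp (Finset.mem_coe.mp hv)), Finset.sum_mul]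
        refine Finset.sum_congr rfl fun v hv => ?_
        rw [hinner r hr v hv, Finset.sum_filter]

/-- Each fibre of the class map has the Riemann–Roch cardinality. -/
theorem natCard_fibre_eq (hg : IsFrob g p f) (hP0 : g • P0 = P0) {n : ℕ}
    (hn : 2 * genusFF k F ≤ n + 1) (x : fixedPic g) :
    Nat.card {E : EffFixed g n // cl P0 E.1 = x.1} * (p ^ f - 1) + 1 =
      (p ^ f) ^ (n + 1 - genusFF k F) := by
  obtain ⟨x, hx⟩ := x
  obtain ⟨D, rfl⟩ := Pic0.mk_surjective x
  have hl := (ell_add_single (P0 := P0) n D).2 hn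
  rw [natCard_fibre hg hP0 n D hx]
  congr 1
  omega

theorem bCount_eq_sum (hg : IsFrob g p f) (hP0 : g • P0 = P0) [Fintype (fixedPic g)]
    (χ : AddChar (fixedPic g) ℂ) (n : ℕ) :
    bCount P0 χ n =
      ∑ x : fixedPic g, (Nat.card {E : EffFixed g n // cl P0 E.1 = x.1} : ℂ) * χ x := by
  classical
  have := EffFixed.finite hg n
  have := Fintype.ofFinite (EffFixed g n)
  rw [bCount, finsum_eq_sum_of_fintype, ← Finset.sum_fiberwise Finset.univ
    (fun E : EffFixed g n => (⟨cl P0 E.1, cl_mem_fixedPic hP0 E.2.2.1⟩ : fixedPic g))]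
  refine Finset.sum_congr rfl fun x _ => ?_
  rw [Finset.sum_congr rfl (g := fun _ => χ x) fun E hE => by
    rw [chiCl_of_fixed hP0 χ E.2.2.1, (Finset.mem_filter.mp hE).2]]
  rw [Finset.sum_const, nsmul_eq_mul, Nat.card_eq_fintype_card, Fintype.card_subtype]
  simp [Subtype.ext_iff]

theorem chiCl_one (hP0 : g • P0 = P0) {E : Divisor k F} (hE : g • E = E) :
    chiCl P0 (1 : AddChar (fixedPic g) ℂ) E = 1 := by
  rw [chiCl_of_fixed hP0 _ hE, AddChar.one_apply]

theorem bCount_one (hg : IsFrob g p f) (hP0 : g • P0 = P0) (n : ℕ) :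
    bCount P0 (1 : AddChar (fixedPic g) ℂ) n = (Nat.card (EffFixed g n) : ℂ) := by
  have := EffFixed.finite hg n
  have := Fintype.ofFinite (EffFixed g n)
  rw [bCount, finsum_eq_sum_of_fintype,
    Finset.sum_congr rfl fun E _ => chiCl_one hP0 E.2.2.1]
  simp

theorem nPlaces_eq_placeCount (hg : IsFrob g p f) (χ : AddChar (fixedPic g) ℂ) {r : ℕ} (hr : r ≠ 0)
    (hχ : ∀ v : Place k F, g ^ r • v = v → chiCl P0 χ (orb g v r) = 1) :
    nPlaces P0 χ r = (placeCount g r : ℂ) := by
  have hfin := (hg.pow (Nat.pos_of_ne_zero hr)).finite_fixed_place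
  rw [nPlaces, finsum_mem_congr (t := {v : Place k F | g ^ r • v = v}) rfl hχ, finsum_mem_eq_finite_toFinset_sum _ hfin,
    Finset.sum_const, nsmul_one, placeCount, ← Nat.card_eq_card_finite_toFinset hfin]
  rfl

/-- For the trivial character the series has class number shape. -/
theorem isCounting (hg : IsFrob g p f) (hP0 : g • P0 = P0) :
    IsCounting (genusFF k F) (Nat.card (fixedPic g)) (p ^ f)
      (fun n => (Nat.card (EffFixed g n) : ℤ)) (fun r => (placeCount g r : ℂ)) := by
  classical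
  have := finite_fixedPic hg hP0
  have := Fintype.ofFinite (fixedPic g)
  have hq : 1 < p ^ f := Nat.one_lt_pow hg.pos.ne' (Fact.out : p.Prime).one_lt
  refine ⟨hq, ?_, fun n => ?_, fun n hn => ?_⟩
  · have h := bCount_zero hg hP0 (1 : AddChar (fixedPic g) ℂ)
    rw [bCount_one hg hP0] at h
    exact_mod_cast h
  · have h := logDeriv_bCount hg hP0 (1 : AddChar (fixedPic g) ℂ) n
    simp only [PowerSeries.coeff_mk, bCount_one hg hP0] at h ⊢
    push_cast
    rw [h]
    refine Finset.sum_congr rfl fun r hr => ?_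
    have hr1 : r ≠ 0 := by rw [Finset.mem_Icc] at hr; omega
    rw [nPlaces_eq_placeCount hg _ hr1 fun v hv => chiCl_one hP0 (smul_orb hv)]
  · have h := bCount_eq_sum hg hP0 (1 : AddChar (fixedPic g) ℂ) n
    rw [bCount_one hg hP0] at h
    simp only [AddChar.one_apply, mul_one] at h
    have h' : Nat.card (EffFixed g n) =
        ∑ x : fixedPic g, Nat.card {E : EffFixed g n // cl P0 E.1 = x.1} := by exact_mod_cast h
    simp only [h', Nat.cast_sum, Finset.sum_mul]
    rw [Finset.sum_congr rfl (g := fun _ => ((p ^ f : ℕ) : ℤ) ^ (n + 1 - genusFF k F) - 1)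
      fun x _ => ?_]
    · rw [Finset.sum_const, Finset.card_univ, nsmul_eq_mul, Nat.card_eq_fintype_card]
    · have h2 := congrArg (Nat.cast : ℕ → ℤ) (natCard_fibre_eq hg hP0 hn x)
      push_cast [Nat.cast_sub hq.le] at h2 ⊢
      linarith

/-- For a nontrivial character the series is a polynomial. -/
theorem bCount_eq_zero (hg : IsFrob g p f) (hP0 : g • P0 = P0) {χ : AddChar (fixedPic g) ℂ}
    (hχ : χ ≠ 1) {n : ℕ} (hn : 2 * genusFF k F ≤ n + 1) : bCount P0 χ n = 0 := by
  classical
  have := finite_fixedPic hg hP0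
  have := Fintype.ofFinite (fixedPic g)
  have hq : 1 < p ^ f := Nat.one_lt_pow hg.pos.ne' (Fact.out : p.Prime).one_lt
  have hc : ∀ x : fixedPic g, (Nat.card {E : EffFixed g n // cl P0 E.1 = x.1} : ℂ) =
      (((p ^ f) ^ (n + 1 - genusFF k F) : ℕ) - 1 : ℂ) / ((p ^ f - 1 : ℕ) : ℂ) := fun x => by
    have h2 := congrArg (Nat.cast : ℕ → ℂ) (natCard_fibre_eq hg hP0 hn x)
    rw [eq_div_iff (Nat.cast_ne_zero.mpr (by omega)), ← h2, Nat.cast_add, Nat.cast_mul,
      Nat.cast_one, add_sub_cancel_right]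
  rw [bCount_eq_sum hg hP0, Finset.sum_congr rfl fun x _ => by rw [hc x], ← Finset.mul_sum,
    AddChar.sum_eq_zero_iff_ne_zero.mpr (by simpa [AddChar.one_eq_zero] using hχ), mul_zero]

end Fermat.Agent.TwoAdic.ClassNumber
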