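import Fermat.Prelude.Def_ModularCurve_X0ModL
import Fermat.Prelude.Def_AlgebraicCurve_BaseChangeGalois
import Mathlib.Algebra.CharP.Lemmas

/-!
# The coefficientwise Frobenius of `k(X₀(N))`

For `k` of characteristic `p` in which every element is fixed by a power of the `p`-power map,
`coefficientwise p-th power` is a semilinear automorphism of `k(X₀(N))` over Frobenius, and every
element of the field is periodic under it.
-/

set_option autoImplicit false

noncomputable section

open ModularCurve AlgebraicCurve

namespace Fermat.Agent.TwoAdic.ClassNumber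

variable {k : Type*} [Field k]

/-- Coefficientwise application of an endomorphism of `k` preserves `k(X₀(N))`. -/
theorem coeffMap_mem_modularField (N : ℕ) (α : k →+* k) {x : LaurentSeries k}
    (hx : x ∈ modularFunctionFieldFullC k N) :
    coeffMap α x ∈ modularFunctionFieldFullC k N := by
  rw [modularFunctionFieldFullC] at hx ⊢
  induction hx using IntermediateField.adjoin_induction with
  | mem y hy =>
    refine IntermediateField.subset_adjoin k _ ?_
    have hy' := hy
    obtain ⟨d, hd, -, rfl⟩ := hy
    rwa [coeffMap_qExpand, coeffMap_jqModC]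
  | algebraMap c =>
    rw [algebraMap_laurentSeries_eq_single, coeffMap_single, ← algebraMap_laurentSeries_eq_single]
    exact IntermediateField.algebraMap_mem _ _
  | add x y _ _ hx hy => rw [map_add]; exact add_mem hx hy
  | inv x _ hx => rw [map_inv₀]; exact inv_mem hx
  | mul x y _ _ hx hy => rw [map_mul]; exact mul_mem hx hy

/-- Coefficientwise application of an automorphism of `k`, on `k(X₀(N))`. -/
def modularCoeffAut (N : ℕ) (α : k ≃+* k) :
    modularFunctionFieldFullC k N ≃+* modularFunctionFieldFullC k N where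
  toFun x := ⟨coeffMap (α : k →+* k) x.1, coeffMap_mem_modularField N _ x.2⟩
  invFun x := ⟨coeffMap (α.symm : k →+* k) x.1, coeffMap_mem_modularField N _ x.2⟩
  left_inv x := Subtype.ext (by
    rw [Subtype.coe_mk, coeffMap_coeffMap, RingEquiv.symm_comp, coeffMap_id])
  right_inv x := Subtype.ext (by
    rw [Subtype.coe_mk, coeffMap_coeffMap, RingEquiv.comp_symm, coeffMap_id])
  map_mul' x y := Subtype.ext (map_mul (coeffMap (α : k →+* k)) x.1 y.1)
  map_add' x y := Subtype.ext (map_add (coeffMap (α : k →+* k)) x.1 y.1)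

theorem coe_modularCoeffAut (N : ℕ) (α : k ≃+* k) (x : modularFunctionFieldFullC k N) :
    (modularCoeffAut N α x : LaurentSeries k) = coeffMap (α : k →+* k) x.1 := rfl

/-- The semilinear automorphism of `k(X₀(N))` attached to an automorphism of `k`. -/
def modularSemilinear (N : ℕ) (α : k ≃+* k) :
    SemilinearAut k (modularFunctionFieldFullC k N) :=
  ⟨(modularCoeffAut N α, α), fun a => Subtype.ext (by
    show coeffMap (α : k →+* k) (algebraMap k (LaurentSeries k) a) =
      algebraMap k (LaurentSeries k) (α a)
    rw [algebraMap_laurentSeries_eq_single, algebraMap_laurentSeries_eq_single, coeffMap_single]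
    rfl)⟩

theorem baseAut_modularSemilinear (N : ℕ) (α : k ≃+* k) :
    SemilinearAut.baseAut (modularSemilinear N α) = α := rfl

theorem coe_toRingAut_modularSemilinear (N : ℕ) (α : k ≃+* k)
    (x : modularFunctionFieldFullC k N) :
    (SemilinearAut.toRingAut (modularSemilinear N α) x : LaurentSeries k) =
      coeffMap (α : k →+* k) x.1 := rfl

variable (p : ℕ) [Fact p.Prime] [CharP k p]

/-- The `p`-power map as an automorphism, when every element is periodic. -/
def periodicFrobenius (hper : ∀ a : k, ∃ m, 0 < m ∧ a ^ p ^ m = a) : k ≃+* k :=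
  RingEquiv.ofBijective (frobenius k p)
    ⟨(frobenius k p).injective, fun a => by
      obtain ⟨m, hm, h⟩ := hper a
      refine ⟨a ^ p ^ (m - 1), ?_⟩
      rw [frobenius_def, ← pow_mul, ← pow_succ, Nat.sub_add_cancel hm, h]⟩

theorem periodicFrobenius_apply (hper : ∀ a : k, ∃ m, 0 < m ∧ a ^ p ^ m = a) (a : k) :
    periodicFrobenius p hper a = a ^ p := rfl

/-- Every element of `k(X₀(N))` is periodic under the coefficientwise Frobenius. -/
theorem modularFrobenius_periodic (N : ℕ) (hper : ∀ a : k, ∃ m, 0 < m ∧ a ^ p ^ m = a)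
    (x : modularFunctionFieldFullC k N) :
    ∃ n, 0 < n ∧
      (SemilinearAut.toRingAut (modularSemilinear N (periodicFrobenius p hper)))^[n] x = x := by
  set F := periodicFrobenius p hper with hF
  let c : LaurentSeries k →+* LaurentSeries k := coeffMap (F : k →+* k)
  suffices h : ∀ y ∈ modularFunctionFieldFullC k N, ∃ n, 0 < n ∧ c^[n] y = y by
    obtain ⟨n, hn, he⟩ := h x.1 x.2
    refine ⟨n, hn, Subtype.ext ?_⟩
    rw [← he]
    exact Function.Semiconj.iterate_right (f := Subtype.val) (fun _ => rfl) n x
  have hboth : ∀ y z, (∃ n, 0 < n ∧ c^[n] y = y) → (∃ n, 0 < n ∧ c^[n] z = z) →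
      ∃ n, 0 < n ∧ c^[n] y = y ∧ c^[n] z = z := by
    rintro y z ⟨a, ha, hy⟩ ⟨b, hb, hz⟩
    exact ⟨a * b, Nat.mul_pos ha hb, Function.IsPeriodicPt.mul_const hy b,
      Function.IsPeriodicPt.const_mul hz a⟩
  intro y hy
  rw [modularFunctionFieldFullC] at hy
  induction hy using IntermediateField.adjoin_induction with
  | mem y hy =>
    obtain ⟨d, hd, -, rfl⟩ := hy
    exact ⟨1, one_pos, by
      rw [Function.iterate_one]; show coeffMap _ _ = _; rw [coeffMap_qExpand, coeffMap_jqModC]⟩
  | algebraMap a =>
    obtain ⟨m, hm, ha⟩ := hper a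
    refine ⟨m, hm, ?_⟩
    have hsingle : ∀ j b, c^[j] (HahnSeries.single (0 : ℤ) b) =
        HahnSeries.single (0 : ℤ) (b ^ p ^ j) := by
      intro j
      induction j with
      | zero => simp
      | succ j ih =>
        intro b
        rw [Function.iterate_succ_apply', ih]
        show coeffMap _ _ = _
        rw [coeffMap_single, pow_succ, pow_mul]
        rfl
    rw [algebraMap_laurentSeries_eq_single, hsingle, ha]
  | add y z _ _ ihy ihz =>
    obtain ⟨n, hn, h1, h2⟩ := hboth y z ihy ihz
    exact ⟨n, hn, by rw [iterate_map_add, h1, h2]⟩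
  | mul y z _ _ ihy ihz =>
    obtain ⟨n, hn, h1, h2⟩ := hboth y z ihy ihz
    exact ⟨n, hn, by rw [iterate_map_mul, h1, h2]⟩
  | inv y _ ih =>
    obtain ⟨n, hn, h1⟩ := ih
    refine ⟨n, hn, ?_⟩
    have : ∀ j, c^[j] y⁻¹ = (c^[j] y)⁻¹ := by
      intro j
      induction j with
      | zero => rfl
      | succ j ih => rw [Function.iterate_succ_apply', Function.iterate_succ_apply', ih, map_inv₀]
    rw [this, h1]

/-- Periodicity, for the powers in the group of semilinear automorphisms. -/
theorem exists_pow_modularFrobenius_smul (N : ℕ) (hper : ∀ a : k, ∃ m, 0 < m ∧ a ^ p ^ m = a)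
    (x : modularFunctionFieldFullC k N) :
    ∃ n, 0 < n ∧ modularSemilinear N (periodicFrobenius p hper) ^ n • x = x := by
  obtain ⟨n, hn, h⟩ := modularFrobenius_periodic p N hper x
  refine ⟨n, hn, ?_⟩
  refine Eq.trans ?_ h
  clear h hn
  induction n with
  | zero => simp
  | succ n ih => rw [pow_succ', mul_smul, ih, Function.iterate_succ_apply']; rfl

end Fermat.Agent.TwoAdic.ClassNumber
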