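import Fermat.Agent.TwoAdic.ClassNumber.Counting
import Mathlib.Analysis.Fourier.FiniteAbelian.PontryaginDuality

/-!
# The norm between fixed class groups

For a Frobenius `g` with fixed place, `φ = g ^ M` and `ψ = φ ^ ℓ`: the norm
`x ↦ ∑_{i < ℓ} φ ^ i x` from the `ψ`-fixed classes to the `φ`-fixed classes is surjective, so its
kernel has `∏ (1 + α ^ M + ⋯ + α ^ (M (ℓ - 1)))` elements.

Team LT2, owner helper45.
-/

set_option autoImplicit false
set_option linter.unusedSectionVars false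

noncomputable section

open AlgebraicCurve Fermat.Agent.Curve

namespace Fermat.Agent.TwoAdic.ClassNumber

variable {k F : Type*} [Field k] [IsAlgClosed k] [Field F] [Algebra k F] [IsFunctionField1 k F]
variable {p : ℕ} [Fact p.Prime] [CharP k p] {f : ℕ}
variable {g φ : SemilinearAut k F} {P0 : Place k F}

theorem sum_pow_smul_mem {ℓ : ℕ} {x : Pic0 k F} (hx : φ ^ ℓ • x = x) :
    φ • (∑ i ∈ Finset.range ℓ, φ ^ i • x) = ∑ i ∈ Finset.range ℓ, φ ^ i • x := by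
  rcases ℓ with - | ℓ
  · simp
  rw [Finset.smul_sum]
  simp only [← mul_smul, ← pow_succ']
  rw [Finset.sum_range_succ (fun i => φ ^ (i + 1) • x), hx,
    Finset.sum_range_succ' (fun i => φ ^ i • x), pow_zero, one_smul]

/-- The norm from `φ ^ ℓ`-fixed to `φ`-fixed classes. -/
def normHom (φ : SemilinearAut k F) (ℓ : ℕ) : fixedPic (φ ^ ℓ) →+ fixedPic φ :=
  AddMonoidHom.mk' (fun x => ⟨∑ i ∈ Finset.range ℓ, φ ^ i • (x : Pic0 k F), sum_pow_smul_mem x.2⟩)
    fun x y => Subtype.ext (by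
      show ∑ i ∈ Finset.range ℓ, φ ^ i • ((x : Pic0 k F) + y) =
        ∑ i ∈ Finset.range ℓ, φ ^ i • (x : Pic0 k F) + ∑ i ∈ Finset.range ℓ, φ ^ i • (y : Pic0 k F)
      simp only [smul_add, Finset.sum_add_distrib])

theorem coe_normHom (ℓ : ℕ) (x : fixedPic (φ ^ ℓ)) :
    (normHom φ ℓ x : Pic0 k F) = ∑ i ∈ Finset.range ℓ, φ ^ i • (x : Pic0 k F) := rfl

theorem sum_pow_smul_orb (ℓ r : ℕ) (v : Place k F) :
    ∑ i ∈ Finset.range ℓ, φ ^ i • orb (φ ^ ℓ) v r = orb φ v (ℓ * r) := by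
  induction r with
  | zero => simp [orb]
  | succ r ih =>
    have h1 : orb (φ ^ ℓ) v (r + 1) = orb (φ ^ ℓ) v r + Finsupp.single ((φ ^ ℓ) ^ r • v) 1 :=
      Finset.sum_range_succ _ _
    have h2 : orb φ v (ℓ * r + ℓ) = orb φ v (ℓ * r) +
        ∑ i ∈ Finset.range ℓ, Finsupp.single (φ ^ (ℓ * r + i) • v) 1 :=
      Finset.sum_range_add _ _ _
    rw [Nat.mul_succ, h2, h1]
    simp only [smul_add, Finset.sum_add_distrib, ih]
    refine congrArg (_ + ·) (Finset.sum_congr rfl fun i _ => ?_)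
    rw [SemilinearAut.smul_single, ← pow_mul, ← mul_smul, ← pow_add, add_comm i]

theorem placeCount_eq (hg : IsFrob g p f) (hP0 : g • P0 = P0) :
    ∃ s : Multiset ℂ, Multiset.card s = 2 * genusFF k F ∧ (∀ a ∈ s, IsIntegral ℤ a) ∧
      (∀ r, r ≠ 0 → (placeCount g r : ℂ) =
        ((p ^ f : ℕ) : ℂ) ^ r + 1 - (s.map (· ^ r)).sum) ∧
      ∀ m, m ≠ 0 → (Nat.card (fixedPic (g ^ m)) : ℂ) = (s.map fun a => 1 - a ^ m).prod := by
  obtain ⟨s, hs, hint, hN, -⟩ := (isCounting hg hP0).exists_roots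
  refine ⟨s, hs, hint, hN, fun m hm => ?_⟩
  have H := isCounting (hg.pow (Nat.pos_of_ne_zero hm))
    (P0 := P0) (pow_smul_eq_of_dvd (N := 1) (by rwa [pow_one]) (one_dvd m))
  rw [pow_mul] at H
  exact (isCounting hg hP0).classNumber hN hm H fun r _ => by rw [placeCount_pow]

/-- The norm is surjective. -/
theorem normHom_surjective (hg : IsFrob g p f) (hP0 : g • P0 = P0) {M ℓ : ℕ} (hM : 0 < M)
    (hℓ : 0 < ℓ) : Function.Surjective (normHom (g ^ M) ℓ) := by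
  classical
  set φ := g ^ M with hφdef
  have hφ : IsFrob φ p (f * M) := hg.pow hM
  have hφP : φ • P0 = P0 := pow_smul_eq_of_dvd (N := 1) (by rwa [pow_one]) (one_dvd M)
  have hψP : φ ^ ℓ • P0 = P0 := pow_smul_eq_of_dvd (N := 1) (by rwa [pow_one]) (one_dvd ℓ)
  have := finite_fixedPic hφ hφP
  rw [← AddMonoidHom.range_eq_top]
  by_contra hne
  obtain ⟨a, ha⟩ : ∃ a : fixedPic φ, a ∉ (normHom φ ℓ).range := by
    by_contra hall
    push Not at hall
    exact hne (eq_top_iff.mpr fun a _ => hall a)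
  obtain ⟨ψ, hψ⟩ := AddChar.exists_apply_ne_zero.mpr
    (fun h => ha ((QuotientAddGroup.eq_zero_iff a).mp h) :
      (a : fixedPic φ ⧸ (normHom φ ℓ).range) ≠ 0)
  set χ : AddChar (fixedPic φ) ℂ :=
    ψ.compAddMonoidHom (QuotientAddGroup.mk' (normHom φ ℓ).range) with hχdef
  have hχ1 : χ ≠ 1 := fun h => hψ (by simpa [hχdef] using DFunLike.congr_fun h a)
  have htriv : ∀ r, r ≠ 0 → ∀ v : Place k F, φ ^ (ℓ * r) • v = v →
      chiCl P0 χ (orb φ v (ℓ * r)) = 1 := by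
    intro r _ v hv
    have hfix : φ ^ ℓ • orb (φ ^ ℓ) v r = orb (φ ^ ℓ) v r := smul_orb (by rwa [← pow_mul])
    rw [chiCl_of_fixed hφP χ (smul_orb hv), hχdef, AddChar.compAddMonoidHom_apply]
    rw [show (QuotientAddGroup.mk' (normHom φ ℓ).range)
        ⟨cl P0 (orb φ v (ℓ * r)), cl_mem_fixedPic hφP (smul_orb hv)⟩ = 0 from
      (QuotientAddGroup.eq_zero_iff _).mpr
        ⟨⟨cl P0 (orb (φ ^ ℓ) v r), cl_mem_fixedPic hψP hfix⟩, Subtype.ext (by
          rw [coe_normHom]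
          show ∑ i ∈ Finset.range ℓ, φ ^ i • cl P0 (orb (φ ^ ℓ) v r) = cl P0 (orb φ v (ℓ * r))
          rw [← sum_pow_smul_orb, map_sum]
          exact Finset.sum_congr rfl fun i _ =>
            (cl_smul (pow_smul_eq_of_dvd (N := 1) (by rwa [pow_one]) (one_dvd i)) _).symm)⟩]
    exact ψ.map_zero_eq_one
  obtain ⟨t, ht⟩ := exists_powerSums_of_finite (logDeriv_bCount hφ hφP χ)
    (by rw [← PowerSeries.coeff_zero_eq_constantCoeff_apply, PowerSeries.coeff_mk,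
      bCount_zero hφ hφP])
    (B := 2 * genusFF k F) fun n hn => by
      rw [PowerSeries.coeff_mk, bCount_eq_zero hφ hφP hχ1 (by omega)]
  obtain ⟨s, -, -, hN, hcard⟩ := placeCount_eq hg hP0
  refine false_of_powerSums (s := s.map (· ^ (M * ℓ))) (t := t.map (· ^ ℓ))
    (c := ((p ^ f : ℕ) : ℂ) ^ (M * ℓ)) ?_ ?_ fun r hr => ?_
  · rw [← Nat.cast_pow, ← Nat.cast_one, Ne, Nat.cast_inj]
    exact (Nat.one_lt_pow (by positivity)
      (Nat.one_lt_pow hg.pos.ne' (Fact.out : p.Prime).one_lt)).ne'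
  · intro a ha1 ha
    obtain ⟨b, hb, rfl⟩ := Multiset.mem_map.mp ha1
    have h := hcard (M * ℓ) (by positivity)
    rw [Multiset.prod_eq_zero (Multiset.mem_map.mpr ⟨b, hb, by rw [ha, sub_self]⟩)] at h
    have := finite_fixedPic (hg.pow (n := M * ℓ) (by positivity))
      (pow_smul_eq_of_dvd (N := 1) (by rwa [pow_one]) (one_dvd _))
    exact Nat.card_pos.ne' (Nat.cast_eq_zero.mp h)
  · rw [pow_sum_map, pow_sum_map, ← pow_mul, ← ht (ℓ * r) (Nat.mul_ne_zero hℓ.ne' hr),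
      nPlaces_eq_placeCount hφ χ (Nat.mul_ne_zero hℓ.ne' hr) (htriv r hr), hφdef, placeCount_pow,
      hN _ (by positivity), mul_assoc]

/-- The kernel of the norm has `∏ (1 + α ^ M + ⋯)` elements, hence is not divisible by
`ℓ ^ (2 g + 1)` for suitable `M`. -/
theorem exists_not_dvd_ker (hg : IsFrob g p f) (hP0 : g • P0 = P0) {ℓ : ℕ} (hℓ : 1 < ℓ) :
    ∃ M0, 0 < M0 ∧ ∀ M, M0 ∣ M → 0 < M →
      ¬ ℓ ^ (2 * genusFF k F + 1) ∣ Nat.card (normHom (g ^ M) ℓ).ker := by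
  obtain ⟨s, hs, hint, -, hcard⟩ := placeCount_eq hg hP0
  obtain ⟨M0, hM0, h⟩ := exists_not_dvd s hint hℓ
  refine ⟨M0, hM0, fun M hM hMpos => ?_⟩
  rw [← hs]
  refine h M hM hMpos _ ?_
  have := finite_fixedPic (hg.pow hMpos)
    (P0 := P0) (pow_smul_eq_of_dvd (N := 1) (by rwa [pow_one]) (one_dvd M))
  have hmul := AddSubgroup.card_eq_card_quotient_mul_card_addSubgroup (normHom (g ^ M) ℓ).ker
  rw [Nat.card_congr (QuotientAddGroup.quotientKerEquivOfSurjective _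
    (normHom_surjective hg hP0 hMpos (by omega))).toEquiv] at hmul
  have h1 := hcard M hMpos.ne'
  have h2 := hcard (M * ℓ) (Nat.mul_ne_zero hMpos.ne' (by omega))
  rw [pow_mul, hmul, Nat.cast_mul] at h2
  have hne : (Nat.card (fixedPic (g ^ M)) : ℂ) ≠ 0 := Nat.cast_ne_zero.mpr Nat.card_pos.ne'
  refine mul_left_cancel₀ hne ?_
  rw [h2, h1, ← Multiset.prod_map_mul]
  refine congrArg Multiset.prod (Multiset.map_congr rfl fun a _ => ?_)
  rw [pow_mul, ← geom_sum_mul_neg, mul_comm]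

end Fermat.Agent.TwoAdic.ClassNumber
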